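import Fermat.Agent.FF.Degree

/-!
# The genus (by Riemann's theorem) and `l(D) = deg D + 1 - g` for large degree
-/

set_option autoImplicit false

noncomputable section

open AlgebraicCurve

namespace Fermat.Agent.FF

variable (K F : Type*) [Field K] [Field F] [Algebra K F] [IsFunctionField K F]

theorem exists_max_defect :
    ∃ g : ℤ, (∀ D : Divisor K F, Divisor.degree D + 1 - (ell D : ℤ) ≤ g) ∧
      ∃ D : Divisor K F, Divisor.degree D + 1 - (ell D : ℤ) = g := by
  obtain ⟨γ, hγ⟩ := exists_riemann_inequality K F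
  obtain ⟨g, ⟨D, rfl⟩, hmax⟩ := Int.exists_greatest_of_bdd
    (P := fun z => ∃ D : Divisor K F, Divisor.degree D + 1 - (ell D : ℤ) = z)
    ⟨γ, fun z ⟨D, hD⟩ => by have := hγ D; omega⟩ ⟨_, 0, rfl⟩
  exact ⟨_, fun E => hmax _ ⟨E, rfl⟩, D, rfl⟩

/-- Riemann's genus `max (deg D + 1 - l(D))`. -/
def riemannGenus : ℤ := (exists_max_defect K F).choose

variable {K F}

theorem riemann_inequality (D : Divisor K F) :
    Divisor.degree D + 1 - riemannGenus K F ≤ (ell D : ℤ) := by
  have := (exists_max_defect K F).choose_spec.1 D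
  unfold riemannGenus; omega

/-- In large degree Riemann's inequality is an equality. -/
theorem exists_ell_eq_of_degree_ge (K F : Type*) [Field K] [Field F] [Algebra K F]
    [IsFunctionField K F] :
    ∃ N : ℤ, ∀ D : Divisor K F, N ≤ Divisor.degree D →
      (ell D : ℤ) = Divisor.degree D + 1 - riemannGenus K F := by
  obtain ⟨D₀, hD₀⟩ := (exists_max_defect K F).choose_spec.2
  refine ⟨Divisor.degree D₀ + riemannGenus K F, fun D hD =>
    le_antisymm ?_ (riemann_inequality D)⟩
  have h1 := riemann_inequality (D - D₀)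
  rw [map_sub] at h1
  obtain ⟨f, hf, hf0⟩ : ∃ f ∈ riemannRochSpace (D - D₀), f ≠ 0 := by
    refine Submodule.exists_mem_ne_zero_of_ne_bot fun h => ?_
    have h0 : ell (D - D₀) = 0 := by rw [ell, h, finrank_bot]
    omega
  have hle : D₀ ≤ D + divOf K f := fun v => by
    have := mem_riemannRochSpace.mp hf v
    rw [mem_ordGE_of_ne_zero v hf0] at this
    simp only [Finsupp.sub_apply] at this
    simp only [Finsupp.add_apply, divOf_apply]
    omega
  have h2 := ell_sub_degree_antitone hle
  have h3 : ell (D + divOf K f) = ell D := by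
    have := ell_sub_divOf hf0 (D + divOf K f)
    rwa [add_sub_cancel_right, eq_comm] at this
  rw [h3, map_add, degree_divOf, add_zero] at h2
  change _ = riemannGenus K F at hD₀
  omega

end Fermat.Agent.FF
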