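import Fermat.Agent.FF.Degree

/-!
# Dimension of `⋂ ordGE w 0 / ⋂ ordGE w (n w)` over finitely many places
-/

set_option autoImplicit false

noncomputable section

open AlgebraicCurve

namespace Fermat.Agent.FF

variable {K F : Type*} [Field K] [Field F] [Algebra K F] [IsFunctionField K F]

/-- Elements of order `≥ n w` at every `w ∈ T`. -/
def multiGE (T : Finset (Place K F)) (n : Place K F → ℤ) : Submodule K F :=
  ⨅ w ∈ T, ordGE w (n w)

omit [IsFunctionField K F] in
theorem mem_multiGE {T : Finset (Place K F)} {n : Place K F → ℤ} {f : F} :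
    f ∈ multiGE T n ↔ ∀ w ∈ T, f ∈ ordGE w (n w) := by
  simp [multiGE]

omit [IsFunctionField K F] in
theorem multiGE_mono {T : Finset (Place K F)} {m n : Place K F → ℤ} (h : ∀ w ∈ T, m w ≤ n w) :
    multiGE T n ≤ multiGE T m := fun _ hf =>
  mem_multiGE.mpr fun w hw => ordGE_antitone w (h w hw) (mem_multiGE.mp hf w hw)

/-- The relevant quotient. -/
abbrev MultiQuot (T : Finset (Place K F)) (n : Place K F → ℕ) : Type _ :=
  multiGE T (fun _ => 0) ⧸
    (multiGE T (fun w => (n w : ℤ))).comap (multiGE T (fun _ => 0)).subtype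

omit [IsFunctionField K F] in
/-- Dimension bookkeeping for a one-step filtration `C ≤ B ≤ A` with `B/C ≅ M`. -/
theorem finrank_quotient_step {V M : Type*} [AddCommGroup V] [Module K V] [AddCommGroup M]
    [Module K M] [Module.Finite K M] {A B C : Submodule K V} (hBA : B ≤ A) (hCB : C ≤ B)
    [Module.Finite K (A ⧸ B.comap A.subtype)] (ψ : B →ₗ[K] M) (hψ : Function.Surjective ψ)
    (hker : LinearMap.ker ψ = C.comap B.subtype) :
    Module.Finite K (A ⧸ C.comap A.subtype) ∧
      Module.finrank K (A ⧸ C.comap A.subtype) =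
        Module.finrank K (A ⧸ B.comap A.subtype) + Module.finrank K M := by
  set CA := C.comap A.subtype with hCA
  set BA := B.comap A.subtype with hBA'
  let g : B →ₗ[K] A ⧸ CA := CA.mkQ.comp (Submodule.inclusion hBA)
  have hgker : LinearMap.ker g = LinearMap.ker ψ := by
    rw [hker, LinearMap.ker_comp, Submodule.ker_mkQ]
    rfl
  have hrange : LinearMap.range g = BA.map CA.mkQ := by
    rw [LinearMap.range_comp, Submodule.range_inclusion]
  let erange : LinearMap.range g ≃ₗ[K] M :=
    g.quotKerEquivRange.symm.trans ((Submodule.quotEquivOfEq _ _ hgker).trans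
      (ψ.quotKerEquivOfSurjective hψ))
  let equot : ((A ⧸ CA) ⧸ LinearMap.range g) ≃ₗ[K] A ⧸ BA :=
    (Submodule.quotEquivOfEq _ _ hrange).trans
      (Submodule.quotientQuotientEquivQuotient CA BA (Submodule.comap_mono hCB))
  have : Module.Finite K (LinearMap.range g) := Module.Finite.equiv erange.symm
  have : Module.Finite K ((A ⧸ CA) ⧸ LinearMap.range g) := Module.Finite.equiv equot.symm
  have hfin : Module.Finite K (A ⧸ CA) := Module.Finite.of_submodule_quotient (LinearMap.range g)
  refine ⟨hfin, ?_⟩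
  rw [← Submodule.finrank_quotient_add_finrank (LinearMap.range g), equot.finrank_eq,
    erange.finrank_eq]

theorem multiQuot_step (T : Finset (Place K F)) (n m : Place K F → ℕ) {v : Place K F}
    (hv : v ∈ T) (hmv : m v = n v + 1) (hm : ∀ w ∈ T, w ≠ v → m w = n w)
    [Module.Finite K (MultiQuot T n)] :
    Module.Finite K (MultiQuot T m) ∧
      Module.finrank K (MultiQuot T m) = Module.finrank K (MultiQuot T n) + v.deg := by
  classical
  set A := multiGE T (fun _ : Place K F => (0 : ℤ)) with hA
  set B := multiGE T (fun w => (n w : ℤ)) with hB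
  set C := multiGE T (fun w => (m w : ℤ)) with hC
  have hBle : B ≤ A := multiGE_mono fun w _ => Int.natCast_nonneg _
  have hCB : C ≤ B := multiGE_mono fun w hw => by
    rcases eq_or_ne w v with rfl | h
    · rw [hmv]; push_cast; omega
    · rw [hm w hw h]
  obtain ⟨t, ht0, ht⟩ := exists_ne_zero_ord_eq v (-(n v : ℤ))
  let ψ : B →ₗ[K] v.ResidueField :=
    (residueMap v).comp (LinearMap.codRestrict (ordGE v 0)
      ((LinearMap.mulLeft K t).comp B.subtype) fun f => by
        simpa [ht] using mul_mem_ordGE v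
          (mem_ordGE_of_le_ord v (ht.ge : -(n v : ℤ) ≤ v.ord t)) (mem_multiGE.mp f.2 v hv))
  have hψker : LinearMap.ker ψ = C.comap B.subtype := by
    ext f
    rw [LinearMap.mem_ker, LinearMap.comp_apply, residueMap_eq_zero_iff, Submodule.mem_comap]
    show t * (f : F) ∈ ordGE v 1 ↔ (f : F) ∈ C
    rw [show (1 : ℤ) = v.ord t + (m v : ℤ) by rw [hmv]; push_cast; omega,
      mul_mem_ordGE_iff v ht0, hC, mem_multiGE]
    refine ⟨fun h w hw => ?_, fun h => h v hv⟩
    rcases eq_or_ne w v with rfl | hne
    · exact h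
    · rw [hm w hw hne]; exact mem_multiGE.mp f.2 w hw
  have hψsurj : Function.Surjective ψ := fun r => by
    obtain ⟨s, rfl⟩ := residueMap_surjective v r
    obtain ⟨z, hz⟩ := exists_approx T (fun w => if w = v then t⁻¹ * s else 0)
      (fun w => if w = v then (n v : ℤ) + 1 else n w)
    have hzv : z - t⁻¹ * s ∈ ordGE v ((n v : ℤ) + 1) := by simpa using hz v hv
    have hzB : z ∈ B := mem_multiGE.mpr fun w hw => by
      rcases eq_or_ne w v with rfl | hne
      · rw [← sub_add_cancel z (t⁻¹ * (s : F))]
        refine add_mem (ordGE_antitone _ (by omega) hzv) ?_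
        simpa [Place.ord_inv, ht] using mul_mem_ordGE w
          (mem_ordGE_of_le_ord w (le_refl (w.ord t⁻¹))) s.2
      · simpa [hne] using hz w hw
    refine ⟨⟨z, hzB⟩, ?_⟩
    rw [← sub_eq_zero, LinearMap.comp_apply, ← map_sub, residueMap_eq_zero_iff]
    show t * z - (s : F) ∈ ordGE v 1
    rw [show t * z - (s : F) = t * (z - t⁻¹ * s) by field_simp,
      show (1 : ℤ) = v.ord t + ((n v : ℤ) + 1) by omega, mul_mem_ordGE_iff v ht0]
    exact hzv
  exact finrank_quotient_step hBle hCB ψ hψsurj hψker

/-- `dim (⋂ ordGE w 0 / ⋂ ordGE w (n w)) = ∑ n w · deg w`. -/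
theorem finrank_multiQuot (T : Finset (Place K F)) (n : Place K F → ℕ) :
    Module.Finite K (MultiQuot T n) ∧
      Module.finrank K (MultiQuot T n) = ∑ w ∈ T, n w * w.deg := by
  classical
  induction h : ∑ w ∈ T, n w generalizing n with
  | zero =>
    have htop : (multiGE T (fun w => (n w : ℤ))).comap (multiGE T (fun _ => 0)).subtype = ⊤ := by
      rw [eq_top_iff]
      intro f _
      rw [Submodule.mem_comap, Submodule.coe_subtype, mem_multiGE]
      intro w hw
      rw [Finset.sum_eq_zero_iff.mp h w hw]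
      exact mem_multiGE.mp f.2 w hw
    have : Subsingleton (MultiQuot T n) := Submodule.Quotient.subsingleton_iff.mpr htop
    refine ⟨inferInstance, ?_⟩
    rw [Module.finrank_zero_of_subsingleton, Finset.sum_eq_zero]
    intro w hw
    rw [Finset.sum_eq_zero_iff.mp h w hw, zero_mul]
  | succ k ih =>
    obtain ⟨v, hv, hv0⟩ := Finset.exists_ne_zero_of_sum_ne_zero
      (show ∑ w ∈ T, n w ≠ 0 by omega)
    let n' : Place K F → ℕ := Function.update n v (n v - 1)
    have hn'v : n' v = n v - 1 := Function.update_self ..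
    have hn' : ∀ w, w ≠ v → n' w = n w := fun w hw => Function.update_of_ne hw ..
    have hrest : ∀ f : Place K F → ℕ, ∑ w ∈ T.erase v, n' w * f w = ∑ w ∈ T.erase v, n w * f w :=
      fun f => Finset.sum_congr rfl fun w hw => by rw [hn' w (Finset.ne_of_mem_erase hw)]
    have hsum : ∑ w ∈ T, n' w = k := by
      have h2 := hrest fun _ => 1
      simp only [mul_one] at h2
      rw [← Finset.add_sum_erase _ _ hv] at h ⊢
      rw [hn'v, h2]; omega
    obtain ⟨hfin, hrank⟩ := ih n' hsum
    obtain ⟨h1, h2⟩ := multiQuot_step T n' n hv (by rw [hn'v]; omega)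
      (fun w _ hw => (hn' w hw).symm)
    refine ⟨h1, ?_⟩
    rw [h2, hrank, ← Finset.add_sum_erase _ _ hv, ← Finset.add_sum_erase _ _ hv, hn'v,
      hrest, add_right_comm, ← add_one_mul]
    congr 2
    omega

end Fermat.Agent.FF
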