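import Fermat.Agent.FF.Genus
import Fermat.Agent.FF.MultiFiltration
import Fermat.Prelude.Def_AlgebraicCurve_Repartitions

/-!
# `H¹(D)` of repartitions is finite; `dim H¹(D) = l(D) - deg D - 1 + g`
-/

set_option autoImplicit false

noncomputable section

open AlgebraicCurve

namespace Fermat.Agent.FF

variable {K F : Type*} [Field K] [Field F] [Algebra K F] [IsFunctionField K F]

omit [IsFunctionField K F] in
theorem mem_repartitionsOf {D : Divisor K F} {α : ↥(repartitions K F)} :
    α ∈ repartitionsOf D ↔ ∀ v : Place K F, (α : Place K F → F) v ∈ ordGE v (-D v) := by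
  simp only [mem_repartitionsOf_iff, mem_ordGE]

/-- A repartition has poles at finitely many places. -/
theorem finite_bad_of_mem_repartitions {α : Place K F → F} (hα : α ∈ repartitions K F) :
    {v : Place K F | α v ∉ ordGE v 0}.Finite := by
  induction hα using Algebra.adjoin_induction with
  | mem β hβ =>
    refine Set.Finite.subset hβ fun v hv hle => hv ?_
    show v.adicValuation (β v) ≤ WithZero.exp (-0)
    simpa using hle
  | algebraMap f =>
    refine (finite_setOf_ord_neg (K := K) f).subset fun v hv => ?_
    by_contra h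
    exact hv (mem_ordGE_of_le_ord v (not_lt.mp h))
  | add a b _ _ ha hb =>
    refine (ha.union hb).subset fun v hv => ?_
    by_contra h
    simp only [Set.mem_union, Set.mem_ofPred_eq, not_or, not_not] at h
    exact hv (add_mem h.1 h.2)
  | mul a b _ _ ha hb =>
    refine (ha.union hb).subset fun v hv => ?_
    by_contra h
    simp only [Set.mem_union, Set.mem_ofPred_eq, not_or, not_not] at h
    exact hv (by simpa using mul_mem_ordGE v h.1 h.2)

/-- Every repartition lies in some `repartitionsOf E` with `E` above a given divisor. -/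
theorem exists_mem_repartitionsOf (α : ↥(repartitions K F)) (D : Divisor K F) :
    ∃ E, D ≤ E ∧ α ∈ repartitionsOf E := by
  classical
  set S := (finite_bad_of_mem_repartitions α.2).toFinset ∪ D.support
  let E : Divisor K F := Finsupp.onFinset S
    (fun v => if v ∈ S then max (D v) (-v.ord ((α : Place K F → F) v)) else 0)
    fun v hv => by
      by_contra h
      simp [h] at hv
  refine ⟨E, fun v => ?_, mem_repartitionsOf.mpr fun v => ?_⟩
  · by_cases h : v ∈ S
    · simp [E, h]
    · simp only [E, Finsupp.onFinset_apply, if_neg h]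
      simp only [S, Finset.mem_union, Finsupp.mem_support_iff, not_or, not_not] at h
      exact h.2.le
  · by_cases h : v ∈ S
    · refine ordGE_antitone v ?_ (mem_ordGE_of_le_ord v le_rfl)
      simp [E, h]
      omega
    · simp only [E, Finsupp.onFinset_apply, if_neg h, neg_zero]
      simp only [S, Finset.mem_union, Set.Finite.mem_toFinset, Set.mem_ofPred_eq, not_or,
        not_not] at h
      exact h.1

/-- Bounded functions on places: `A(D)` inside all functions on places. -/
def boundedFun (D : Divisor K F) : Submodule K (Place K F → F) :=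
  Submodule.pi Set.univ fun v => ordGE v (-D v)

omit [IsFunctionField K F] in
theorem mem_boundedFun {D : Divisor K F} {α : Place K F → F} :
    α ∈ boundedFun D ↔ ∀ v : Place K F, α v ∈ ordGE v (-D v) := by
  simp [boundedFun]

omit [IsFunctionField K F] in
theorem boundedFun_mono {D E : Divisor K F} (h : D ≤ E) : boundedFun D ≤ boundedFun E :=
  fun α hα => mem_boundedFun.mpr fun v =>
    ordGE_antitone v (by have := h v; omega) (mem_boundedFun.mp hα v)

omit [IsFunctionField K F] in
theorem mem_repartitions_of_mem_boundedFun {D : Divisor K F} {α : Place K F → F}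
    (h : α ∈ boundedFun D) : α ∈ repartitions K F :=
  mem_repartitions_of_forall_le_exp D α fun v =>
    v.adicValuation_le_exp_iff.mpr ((mem_ordGE v).mp (mem_boundedFun.mp h v))

omit [IsFunctionField K F] in
/-- The linear map reading off the leading coefficient at `v`. -/
theorem exists_leading_map (E : Divisor K F) (v : Place K F) :
    ∃ ψ : boundedFun (E + Finsupp.single v 1) →ₗ[K] v.ResidueField,
      Function.Surjective ψ ∧ LinearMap.ker ψ =
        (boundedFun E).comap (boundedFun (E + Finsupp.single v 1)).subtype := by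
  classical
  obtain ⟨t, ht0, ht⟩ := exists_ne_zero_ord_eq v (E v + 1)
  let ev : boundedFun (E + Finsupp.single v 1) →ₗ[K] F :=
    (LinearMap.proj v).comp (boundedFun (E + Finsupp.single v 1)).subtype
  have hev : ∀ α, t * ev α ∈ ordGE v 0 := fun α => by
    have h := mem_boundedFun.mp α.2 v
    rw [Finsupp.add_apply, Finsupp.single_eq_same] at h
    exact ordGE_antitone v (by omega) (mul_mem_ordGE v (mem_ordGE_of_le_ord v le_rfl) h)
  let ψ := (residueMap v).comp
    (LinearMap.codRestrict (ordGE v 0) ((LinearMap.mulLeft K t).comp ev) hev)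
  refine ⟨ψ, fun r => ?_, ?_⟩
  · obtain ⟨s, rfl⟩ := residueMap_surjective v r
    let β : Place K F → F := fun w => if w = v then t⁻¹ * (s : F) else 0
    have hmem : β ∈ boundedFun (E + Finsupp.single v 1) := mem_boundedFun.mpr fun w => by
      by_cases h : w = v
      · rw [show β w = t⁻¹ * (s : F) by simp [β, h], h, Finsupp.add_apply,
          Finsupp.single_eq_same]
        refine ordGE_antitone v ?_ (mul_mem_ordGE v (mem_ordGE_of_le_ord v le_rfl) s.2)
        rw [v.ord_inv, ht]
        omega
      · rw [show β w = 0 by simp [β, h]]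
        exact zero_mem _
    refine ⟨⟨β, hmem⟩, ?_⟩
    show residueMap v ⟨t * β v, _⟩ = residueMap v s
    congr 1
    exact Subtype.ext (by simp [β, ht0])
  · ext α
    rw [LinearMap.mem_ker, LinearMap.comp_apply, residueMap_eq_zero_iff, Submodule.mem_comap]
    show t * (α : Place K F → F) v ∈ ordGE v 1 ↔ (α : Place K F → F) ∈ boundedFun E
    have h1 : ordGE v 1 = ordGE v (v.ord t + (-E v)) := congrArg (ordGE v) (by omega)
    rw [h1, mul_mem_ordGE_iff v ht0, mem_boundedFun]
    refine ⟨fun h w => ?_, fun h => h v⟩
    rcases eq_or_ne w v with rfl | hw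
    · exact h
    · simpa [Finsupp.single_eq_of_ne hw] using mem_boundedFun.mp α.2 w

/-- `dim A(E)/A(D) = deg (E - D)`. -/
theorem finrank_boundedFun_quotient {D E : Divisor K F} (h : D ≤ E) :
    Module.Finite K (boundedFun E ⧸ (boundedFun D).comap (boundedFun E).subtype) ∧
      (Module.finrank K (boundedFun E ⧸ (boundedFun D).comap (boundedFun E).subtype) : ℤ) =
        Divisor.degree E - Divisor.degree D := by
  refine divisor_le_induction (D := D) (P := fun E =>
    Module.Finite K (boundedFun E ⧸ (boundedFun D).comap (boundedFun E).subtype) ∧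
      (Module.finrank K (boundedFun E ⧸ (boundedFun D).comap (boundedFun E).subtype) : ℤ) =
        Divisor.degree E - Divisor.degree D) ?_ ?_ h
  · have htop : (boundedFun D).comap (boundedFun D).subtype = ⊤ :=
      Submodule.comap_subtype_self _
    have : Subsingleton (boundedFun D ⧸ (boundedFun D).comap (boundedFun D).subtype) :=
      Submodule.Quotient.subsingleton_iff.mpr htop
    exact ⟨inferInstance, by rw [Module.finrank_zero_of_subsingleton, Nat.cast_zero, sub_self]⟩
  · rintro E v hle ⟨hfin, hdim⟩
    obtain ⟨ψ, hψ, hker⟩ := exists_leading_map E v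
    let e := (Submodule.quotEquivOfEq _ _ hker.symm).trans (ψ.quotKerEquivOfSurjective hψ)
    have : Module.Finite K (boundedFun (E + Finsupp.single v 1) ⧸
        (boundedFun E).comap (boundedFun (E + Finsupp.single v 1)).subtype) :=
      Module.Finite.equiv e.symm
    obtain ⟨hfin', hdim'⟩ := finrank_quotient_step (A := boundedFun (E + Finsupp.single v 1))
      (B := boundedFun E) (C := boundedFun D)
      (boundedFun_mono (le_add_of_nonneg_right (by simp)))
      (boundedFun_mono hle) ((boundedFun D).comap (boundedFun E).subtype).mkQ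
      (Submodule.mkQ_surjective _) (Submodule.ker_mkQ _)
    refine ⟨?_, ?_⟩
    · have : Module.Finite K (boundedFun (E + Finsupp.single v 1) ⧸
          (boundedFun E).comap (boundedFun (E + Finsupp.single v 1)).subtype) := this
      exact hfin'
    · rw [hdim', e.finrank_eq, Nat.cast_add, hdim, map_add, Divisor.degree_single, one_mul]
      show (v.deg : ℤ) + _ = _
      ring

variable (K F) in
/-- Constant functions on places. -/
def constFun : F →ₗ[K] (Place K F → F) := LinearMap.pi fun _ => LinearMap.id

omit [IsFunctionField K F] in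
theorem constFun_mem_boundedFun_iff {D : Divisor K F} {f : F} :
    constFun K F f ∈ boundedFun D ↔ f ∈ riemannRochSpace D := by
  rw [mem_boundedFun, mem_riemannRochSpace]
  rfl

/-- The image of `L(E)` in `A(E)/A(D)` has dimension `l(E) - l(D)`. -/
theorem finrank_image_riemannRochSpace {D E : Divisor K F} (h : D ≤ E) :
    ∃ g : riemannRochSpace E →ₗ[K] boundedFun E ⧸ (boundedFun D).comap (boundedFun E).subtype,
      (∀ α : boundedFun E, Submodule.mkQ _ α ∈ LinearMap.range g ↔
        ∃ f : F, (α : Place K F → F) - constFun K F f ∈ boundedFun D) ∧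
      (Module.finrank K (LinearMap.range g) : ℤ) = ell E - ell D := by
  let ι : riemannRochSpace E →ₗ[K] boundedFun E :=
    LinearMap.codRestrict _ ((constFun K F).comp (riemannRochSpace E).subtype)
      fun f => constFun_mem_boundedFun_iff.mpr f.2
  let g := ((boundedFun D).comap (boundedFun E).subtype).mkQ.comp ι
  refine ⟨g, fun α => ?_, ?_⟩
  · rw [LinearMap.mem_range]
    constructor
    · rintro ⟨f, hf⟩
      rw [LinearMap.comp_apply, Submodule.mkQ_apply, Submodule.mkQ_apply,
        eq_comm, Submodule.Quotient.eq, Submodule.mem_comap] at hf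
      exact ⟨f, hf⟩
    · rintro ⟨f, hf⟩
      have hfE : f ∈ riemannRochSpace E := by
        rw [← constFun_mem_boundedFun_iff]
        rw [show constFun K F f = (α : Place K F → F) - ((α : Place K F → F) - constFun K F f) by
          abel]
        exact sub_mem α.2 (boundedFun_mono h hf)
      refine ⟨⟨f, hfE⟩, ?_⟩
      rw [LinearMap.comp_apply, Submodule.mkQ_apply, Submodule.mkQ_apply,
        eq_comm, Submodule.Quotient.eq, Submodule.mem_comap]
      exact hf
  · have hker : LinearMap.ker g = (riemannRochSpace D).comap (riemannRochSpace E).subtype := by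
      ext f
      rw [LinearMap.mem_ker, LinearMap.comp_apply, Submodule.mkQ_apply,
        Submodule.Quotient.mk_eq_zero, Submodule.mem_comap, Submodule.mem_comap]
      exact constFun_mem_boundedFun_iff
    have hdim := LinearMap.finrank_range_add_finrank_ker g
    rw [hker, (Submodule.comapSubtypeEquivOfLe (riemannRochSpace_mono h)).finrank_eq] at hdim
    simp only [ell]
    omega

/-- For a divisor of large degree, constants and bounded functions give all repartitions. -/
theorem exists_forall_exists_sub_const_mem (K F : Type*) [Field K] [Field F]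
    [Algebra K F] [IsFunctionField K F] :
    ∃ N : ℤ, ∀ E : Divisor K F, N ≤ Divisor.degree E → ∀ α ∈ repartitions K F,
      ∃ f : F, α - constFun K F f ∈ boundedFun E := by
  obtain ⟨N, hN⟩ := exists_ell_eq_of_degree_ge K F
  refine ⟨N, fun E hE α hmem => ?_⟩
  obtain ⟨E', hle, hα⟩ := exists_mem_repartitionsOf ⟨α, hmem⟩ E
  have hα' : α ∈ boundedFun E' := mem_boundedFun.mpr (mem_repartitionsOf.mp hα)
  obtain ⟨g, hg, hgdim⟩ := finrank_image_riemannRochSpace hle
  obtain ⟨hfin, hdim⟩ := finrank_boundedFun_quotient hle
  have := hfin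
  have htop : LinearMap.range g = ⊤ := Submodule.eq_top_of_finrank_eq (by
    have h1 := hN E hE
    have h2 := hN E' (hE.trans (degree_mono hle))
    omega)
  exact (hg ⟨α, hα'⟩).mp (htop ▸ Submodule.mem_top)

/-- Bounded functions as repartitions. -/
def inclRep (E : Divisor K F) : boundedFun E →ₗ[K] ↥(repartitions K F) where
  toFun α := ⟨α, mem_repartitions_of_mem_boundedFun α.2⟩
  map_add' _ _ := Subtype.ext rfl
  map_smul' _ _ := Subtype.ext rfl

/-- The class of a bounded function in `H¹(D)`. -/
def toH1 (D E : Divisor K F) : boundedFun E →ₗ[K] H1 D :=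
  (Submodule.mkQ _).comp (inclRep E)

omit [IsFunctionField K F] in
theorem toH1_eq_zero_iff {D E : Divisor K F} (α : boundedFun E) :
    toH1 D E α = 0 ↔ ∃ f : F, (α : Place K F → F) - constFun K F f ∈ boundedFun D := by
  rw [toH1, LinearMap.comp_apply, Submodule.mkQ_apply, Submodule.Quotient.mk_eq_zero,
    Submodule.mem_sup]
  constructor
  · rintro ⟨β, hβ, γ, hγ, hsum⟩
    obtain ⟨f, hf⟩ := mem_principalRepartitions_iff.mp hγ
    refine ⟨f, ?_⟩
    have h1 : (β : Place K F → F) + (γ : Place K F → F) = (α : Place K F → F) :=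
      congrArg Subtype.val hsum
    rw [← h1, hf]
    simpa [constFun, mem_boundedFun] using mem_repartitionsOf.mp hβ
  · rintro ⟨f, hf⟩
    refine ⟨⟨_, mem_repartitions_of_mem_boundedFun hf⟩,
      mem_repartitionsOf.mpr (mem_boundedFun.mp hf), algebraMap F _ f,
      mem_principalRepartitions_iff.mpr ⟨f, rfl⟩, Subtype.ext ?_⟩
    show ((α : Place K F → F) - constFun K F f) + constFun K F f = α
    abel

/-- **Riemann–Roch, first form.** -/
theorem finrank_H1 (D : Divisor K F) :
    Module.Finite K (H1 D) ∧ (Module.finrank K (H1 D) : ℤ) =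
      (ell D : ℤ) - Divisor.degree D - 1 + riemannGenus K F := by
  obtain ⟨N₁, hN₁⟩ := exists_ell_eq_of_degree_ge K F
  obtain ⟨N₂, hN₂⟩ := exists_forall_exists_sub_const_mem K F
  obtain ⟨v⟩ := (instNonemptyPlace : Nonempty (Place K F))
  set m : ℕ := (max N₁ N₂ - Divisor.degree D).toNat
  set E := D + Finsupp.single v (m : ℤ) with hE
  have hle : D ≤ E := le_add_of_nonneg_right (by simp)
  have hdeg : max N₁ N₂ ≤ Divisor.degree E := by
    rw [hE, map_add, Divisor.degree_single]
    have := le_mul_of_one_le_right (Int.natCast_nonneg m)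
      (show (1 : ℤ) ≤ v.deg by exact_mod_cast deg_pos v)
    omega
  obtain ⟨g, hg, hgdim⟩ := finrank_image_riemannRochSpace hle
  obtain ⟨hfin, hdim⟩ := finrank_boundedFun_quotient hle
  have := hfin
  let φ := ((boundedFun D).comap (boundedFun E).subtype).liftQ (toH1 D E) (fun α hα => by
    rw [LinearMap.mem_ker, toH1_eq_zero_iff]
    exact ⟨0, by simpa using hα⟩)
  have hsurj : Function.Surjective φ := fun q => by
    obtain ⟨α, rfl⟩ := Submodule.mkQ_surjective _ q
    obtain ⟨f, hf⟩ := hN₂ E (le_trans (le_max_right _ _) hdeg) α α.2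
    refine ⟨Submodule.mkQ _ ⟨_, hf⟩, ?_⟩
    show toH1 D E ⟨_, hf⟩ = _
    rw [toH1, LinearMap.comp_apply, Submodule.mkQ_apply, Submodule.mkQ_apply,
      Submodule.Quotient.eq]
    refine le_sup_right (a := repartitionsOf D) (mem_principalRepartitions_iff.mpr ⟨-f, ?_⟩)
    funext w
    show ((α : Place K F → F) w - f) - (α : Place K F → F) w = -f
    ring
  have hker : LinearMap.ker φ = LinearMap.range g := by
    ext q
    obtain ⟨α, rfl⟩ := Submodule.mkQ_surjective _ q
    rw [hg α, LinearMap.mem_ker]
    exact toH1_eq_zero_iff α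
  refine ⟨Module.Finite.of_surjective φ hsurj, ?_⟩
  have h := LinearMap.finrank_range_add_finrank_ker φ
  rw [LinearMap.range_eq_top.mpr hsurj, finrank_top, hker] at h
  have h1 := hN₁ E (le_trans (le_max_left _ _) hdeg)
  omega

/-- Over an algebraically closed field only constants have no poles. -/
theorem ell_zero_eq_one [IsAlgClosed K] : ell (0 : Divisor K F) = 1 := by
  obtain ⟨v⟩ := (instNonemptyPlace : Nonempty (Place K F))
  refine le_antisymm ?_ ?_
  · have hneg : ell (-Finsupp.single v 1 : Divisor K F) = 0 :=
      ell_eq_zero_of_degree_neg (by rw [map_neg, Divisor.degree_single, deg_eq_one v]; norm_num)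
    have h := ell_sub_degree_antitone (D := -Finsupp.single v 1) (E := (0 : Divisor K F))
      (neg_nonpos.mpr (by simp))
    rw [hneg, map_neg, Divisor.degree_single, deg_eq_one v, map_zero] at h
    omega
  · refine Nat.one_le_iff_ne_zero.mpr fun h => ?_
    rw [ell, Submodule.finrank_eq_zero] at h
    have h1 : (1 : F) ∈ riemannRochSpace (0 : Divisor K F) :=
      mem_riemannRochSpace.mpr fun w => by simpa using one_mem_ordGE_zero w
    rw [h, Submodule.mem_bot] at h1
    exact one_ne_zero h1

/-- The Prelude's genus is Riemann's genus. -/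
theorem natCast_genusFF_eq_riemannGenus [IsAlgClosed K] :
    (genusFF K F : ℤ) = riemannGenus K F := by
  rw [genusFF, (finrank_H1 (0 : Divisor K F)).2, ell_zero_eq_one, map_zero]
  push_cast
  ring

end Fermat.Agent.FF
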