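import Fermat.Agent.FF.Basic

/-!
# Function fields in one variable

`IsFunctionField K F`: `F` is finite over `K(x)` for some transcendental `x`.
-/

set_option autoImplicit false

noncomputable section

open Polynomial IntermediateField AlgebraicCurve
open scoped IntermediateField.algebraAdjoinAdjoin

namespace Fermat.Agent.FF

variable (K F : Type*) [Field K] [Field F] [Algebra K F]

/-- A function field in one variable over `K`. -/
class IsFunctionField : Prop where
  exists_transcendental_finite : ∃ x : F, Transcendental K x ∧ Module.Finite K⟮x⟯ F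

theorem IsFunctionField.of_finite {K F : Type*} [Field K] [Field F] [Algebra K F] (x : F)
    (hx : Transcendental K x) [Module.Finite K⟮x⟯ F] : IsFunctionField K F :=
  ⟨⟨x, hx, inferInstance⟩⟩

variable {K F}

theorem transcendental_aeval_ne_zero {x : F} (hx : Transcendental K x) {p : K[X]} (hp : p ≠ 0) :
    aeval x p ≠ 0 := fun h => hp ((transcendental_iff.mp hx) p h)

/-- Independence over `K(x)` may be checked with polynomial coefficients. -/
theorem linearIndependent_adjoin_of_poly {ι : Type*} [Fintype ι] {x : F} {z : ι → F}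
    (h : ∀ p : ι → K[X], ∑ i, aeval x (p i) * z i = 0 → ∀ i, p i = 0) :
    LinearIndependent K⟮x⟯ z := by
  classical
  rw [Fintype.linearIndependent_iff]
  intro g hg
  have hmem : ∀ i, ∃ r s : K[X], (g i : F) = aeval x r / aeval x s := fun i =>
    (IntermediateField.mem_adjoin_simple_iff K (g i : F)).mp (g i).2
  choose r s hrs using hmem
  by_contra hne
  push Not at hne
  obtain ⟨i₀, hi₀⟩ := hne
  let supp : Finset ι := Finset.univ.filter fun i => g i ≠ 0
  have hg0 : ∀ i ∈ supp, aeval x (r i) ≠ 0 ∧ aeval x (s i) ≠ 0 := fun i hi => by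
    have : (g i : F) ≠ 0 := by simpa [supp] using hi
    rw [hrs i] at this
    exact div_ne_zero_iff.mp this
  let p : ι → K[X] := fun i =>
    if i ∈ supp then r i * ∏ j ∈ supp.erase i, s j else 0
  have hsum : ∑ i, aeval x (p i) * z i = (∏ j ∈ supp, aeval x (s j)) * ∑ i, g i • z i := by
    rw [Finset.mul_sum]
    refine Finset.sum_congr rfl fun i _ => ?_
    rw [IntermediateField.smul_def, smul_eq_mul]
    by_cases hi : i ∈ supp
    · simp only [p, if_pos hi, map_mul, map_prod]
      rw [← Finset.mul_prod_erase _ _ hi, hrs i]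
      have := (hg0 i hi).2
      field_simp
    · have : g i = 0 := by simpa [supp] using hi
      simp [p, hi, this]
  rw [hg, mul_zero] at hsum
  have hi : i₀ ∈ supp := by simp [supp, hi₀]
  have hp := h p hsum i₀
  simp only [p, if_pos hi] at hp
  have := congrArg (aeval x) hp
  rw [map_mul, map_prod, map_zero, mul_eq_zero, Finset.prod_eq_zero_iff] at this
  rcases this with h0 | ⟨j, hj, h0⟩
  · exact (hg0 _ hi).1 h0
  · exact (hg0 j (Finset.mem_of_mem_erase hj)).2 h0

/-- Reduction step: polynomial relations whose constant terms always vanish are trivial. -/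
theorem poly_relation_eq_zero {ι : Type*} [Fintype ι] {x : F} (hx : x ≠ 0) {z : ι → F}
    (h : ∀ p : ι → K[X], ∑ i, aeval x (p i) * z i = 0 → ∀ i, (p i).coeff 0 = 0)
    (p : ι → K[X]) (hp : ∑ i, aeval x (p i) * z i = 0) : ∀ i, p i = 0 := by
  suffices key : ∀ n (p : ι → K[X]), ∑ i, aeval x (p i) * z i = 0 →
      (∀ i, (p i).natDegree ≤ n) → ∀ i, p i = 0 by
    exact key (∑ i, (p i).natDegree) p hp
      fun i => Finset.single_le_sum (f := fun i => (p i).natDegree) (fun _ _ => Nat.zero_le _)
        (Finset.mem_univ i)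
  intro n
  induction n with
  | zero =>
    intro p hp hdeg i
    rw [Polynomial.eq_C_of_natDegree_eq_zero (Nat.le_zero.mp (hdeg i)), h p hp i, map_zero]
  | succ n ih =>
    intro p hp hdeg
    have hc := h p hp
    have hX : ∀ i, p i = X * (p i).divX := fun i => by
      conv_lhs => rw [← X_mul_divX_add (p i)]
      rw [hc i, map_zero, add_zero]
    have hp' : ∑ i, aeval x (p i).divX * z i = 0 := by
      have : x * ∑ i, aeval x (p i).divX * z i = 0 := by
        rw [Finset.mul_sum, ← hp]
        exact Finset.sum_congr rfl fun i _ => by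
          conv_rhs => rw [hX i, map_mul, aeval_X, mul_assoc]
      exact (mul_eq_zero.mp this).resolve_left hx
    intro i
    have := ih (fun i => (p i).divX) hp' (fun i => by
      have := hdeg i
      rw [natDegree_divX_eq_natDegree_tsub_one]; omega) i
    rw [hX i, this, mul_zero]

theorem aevalAeval_eq_eval₂ (x y : F) (P : K[X][X]) :
    aevalAeval x y P = P.eval₂ (aeval x : K[X] →ₐ[K] F).toRingHom y := by
  induction P using Polynomial.induction_on' with
  | add a b ha hb => rw [map_add, eval₂_add, ha, hb]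
  | monomial n a =>
    rw [eval₂_monomial, ← C_mul_X_pow_eq_monomial, map_mul, map_pow, aevalAeval_C, aevalAeval_Y]
    rfl

variable [IsFunctionField K F]

/-- `F` is finite over `K(y)` for every transcendental `y`. -/
theorem finite_adjoin_simple {y : F} (hy : Transcendental K y) : Module.Finite K⟮y⟯ F := by
  obtain ⟨x, hx, hfin⟩ := IsFunctionField.exists_transcendental_finite (K := K) (F := F)
  have hyx : IsAlgebraic K⟮x⟯ y := Algebra.IsAlgebraic.isAlgebraic y
  obtain ⟨P, hP0, hP⟩ : ∃ P : K[X][X], P ≠ 0 ∧ aevalAeval x y P = 0 := by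
    have halg : IsAlgebraic (Algebra.adjoin K ({x} : Set F)) y :=
      (IsFractionRing.isAlgebraic_iff (Algebra.adjoin K ({x} : Set F)) K⟮x⟯ F).mpr hyx
    obtain ⟨q, hq0, hq⟩ := halg
    have hlift : q ∈ Polynomial.lifts ((aeval x : K[X] →ₐ[K] F).codRestrict
        (Algebra.adjoin K ({x} : Set F))
        (fun p => aeval_mem_adjoin_singleton K x)).toRingHom := by
      rw [lifts_iff_coeff_lifts]
      intro n
      have hmem := (q.coeff n).2
      simp only [Algebra.adjoin_singleton_eq_range_aeval] at hmem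
      obtain ⟨p, hp⟩ := hmem
      exact ⟨p, Subtype.ext hp⟩
    obtain ⟨P, hP⟩ := hlift
    refine ⟨P, fun h => hq0 (by rw [← hP, h, map_zero]), ?_⟩
    rw [← hP, aeval_def, coe_mapRingHom, eval₂_map] at hq
    rw [← hq, aevalAeval_eq_eval₂]
    rfl
  have hxy : IsAlgebraic K⟮y⟯ x := by
    set Q := Bivariate.swap P with hQ
    have hQ0 : Q ≠ 0 := fun h => hP0 (by simpa [hQ] using h)
    have hQyx : aevalAeval y x Q = 0 := by rw [hQ, Bivariate.aevalAeval_swap, hP]
    let φ : K[X] →+* K⟮y⟯ := (aeval (AdjoinSimple.gen K y) : K[X] →ₐ[K] K⟮y⟯).toRingHom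
    have hφ : (algebraMap K⟮y⟯ F).comp φ = (aeval y : K[X] →ₐ[K] F).toRingHom := by
      ext p
      · simp [φ]
      · simp [φ]
    refine ⟨Q.map φ, fun h => hQ0 ?_, ?_⟩
    · refine Polynomial.ext fun n => ?_
      have hn : φ (Q.coeff n) = 0 := by rw [← coeff_map, h, coeff_zero]
      have hn' := congrArg (algebraMap K⟮y⟯ F) hn
      rw [← RingHom.comp_apply, hφ, map_zero] at hn'
      rw [coeff_zero]
      exact (transcendental_iff.mp hy) _ hn'
    · rw [aeval_def, eval₂_map, hφ, ← aevalAeval_eq_eval₂, hQyx]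
  have : FiniteDimensional K⟮y⟯ K⟮y⟯⟮x⟯ := adjoin.finiteDimensional hxy.isIntegral
  have hle : K⟮x⟯ ≤ (K⟮y⟯⟮x⟯).restrictScalars K := by
    rw [adjoin_simple_le_iff]
    exact mem_adjoin_simple_self K⟮y⟯ x
  let _ : Algebra K⟮x⟯ K⟮y⟯⟮x⟯ := (IntermediateField.inclusion hle).toRingHom.toAlgebra
  have : IsScalarTower K⟮x⟯ K⟮y⟯⟮x⟯ F := IsScalarTower.of_algebraMap_eq fun _ => rfl
  have : Module.Finite K⟮y⟯⟮x⟯ F := Module.Finite.of_restrictScalars_finite K⟮x⟯ K⟮y⟯⟮x⟯ F
  exact Module.Finite.trans K⟮y⟯⟮x⟯ F

/-- The number of elements without polynomial relations over `K[y]` is at most `[F : K(y)]`. -/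
theorem card_le_finrank_adjoin {y : F} (hy : Transcendental K y) {ι : Type*} [Fintype ι]
    {z : ι → F}
    (h : ∀ p : ι → K[X], ∑ i, aeval y (p i) * z i = 0 → ∀ i, (p i).coeff 0 = 0) :
    Fintype.card ι ≤ Module.finrank K⟮y⟯ F := by
  have := finite_adjoin_simple hy
  exact (linearIndependent_adjoin_of_poly
    (poly_relation_eq_zero (show y ≠ 0 by rintro rfl; exact hy isAlgebraic_zero)
      h)).fintype_card_le_finrank

end Fermat.Agent.FF
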