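import Fermat.Agent.FF.FunctionField

/-!
# Existence of places

Valuation subrings of a function field containing the constants are discrete, and every
transcendental element has a pole.
-/

set_option autoImplicit false

noncomputable section

open Polynomial IntermediateField AlgebraicCurve

namespace Fermat.Agent.FF

variable {K F : Type*} [Field K] [Field F] [Algebra K F]

/-- An element of nonzero order at some place is transcendental over `K`. -/
theorem transcendental_of_ord_ne_zero (v : Place K F) {f : F} (hf : v.ord f ≠ 0) :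
    Transcendental K f := by
  intro halg
  rcases eq_or_ne f 0 with rfl | hf0
  · exact hf v.ord_zero
  have hint : ∀ g : F, IsAlgebraic K g → g ∈ v.toValuationSubring := fun g hg => by
    have h1 : IsIntegral v.toValuationSubring g := hg.isIntegral.tower_top
    obtain ⟨b, hb⟩ := IsIntegrallyClosed.isIntegral_iff.mp h1
    exact hb ▸ b.2
  have h1 := ord_nonneg_of_mem v (hint f halg)
  have h2 := ord_nonneg_of_mem v (hint f⁻¹ halg.inv)
  rw [v.ord_inv] at h2
  omega

theorem aeval_mem_of_mem {A : ValuationSubring F} (hK : ∀ a : K, algebraMap K F a ∈ A) {y : F}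
    (hy : y ∈ A) (p : K[X]) : aeval y p ∈ A := by
  induction p using Polynomial.induction_on' with
  | add a b ha hb => rw [map_add]; exact add_mem ha hb
  | monomial n a => rw [aeval_monomial]; exact mul_mem (hK a) (pow_mem hy n)

theorem transcendental_of_mem_of_inv_notMem {A : ValuationSubring F}
    (hK : ∀ a : K, algebraMap K F a ∈ A) {y : F} (hy : y ∈ A) (hyi : y⁻¹ ∉ A) :
    Transcendental K y := fun halg => by
  obtain ⟨p, hp⟩ : y⁻¹ ∈ (aeval y : K[X] →ₐ[K] F).range := by
    rw [← Algebra.adjoin_singleton_eq_range_aeval]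
    exact Subalgebra.inv_mem_of_algebraic (A := Algebra.adjoin K {y})
      (x := ⟨y, Algebra.self_mem_adjoin_singleton K y⟩) halg
  exact hyi (hp ▸ aeval_mem_of_mem hK hy p)

theorem transcendental_of_isPole (v : Place K F) {f : F} (hf : v.ord f < 0) :
    Transcendental K f := transcendental_of_ord_ne_zero v hf.ne

variable [IsFunctionField K F]

/-- A non-trivial valuation subring of a function field containing the constants is discrete. -/
theorem isPrincipalIdealRing_valuationSubring_of_ne_top (A : ValuationSubring F)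
    (hK : ∀ a : K, algebraMap K F a ∈ A) : IsPrincipalIdealRing A := by
  classical
  refine ⟨fun I => ?_⟩
  by_contra hI
  have hI0 : I ≠ ⊥ := fun h => hI (h ▸ ⟨0, by simp⟩)
  obtain ⟨y, hyI, hy0⟩ := Submodule.exists_mem_ne_zero_of_ne_bot hI0
  have hItop : I ≠ ⊤ := fun h => hI (h ▸ ⟨1, Ideal.span_singleton_one.symm⟩)
  have hnu : ∀ a ∈ I, ¬ IsUnit a := fun a ha hu => hItop (I.eq_top_of_isUnit_mem ha hu)
  have hstep : ∀ a : I, ∃ b : I, (a : A) ∈ Ideal.span {(b : A)} * IsLocalRing.maximalIdeal A := by
    intro a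
    have hlt : ¬ I ≤ Ideal.span {(a : A)} := fun hle => hI ⟨a, le_antisymm hle
      ((Ideal.span_singleton_le_iff_mem I).mpr a.2)⟩
    obtain ⟨b, hbI, hb⟩ := SetLike.not_le_iff_exists.mp hlt
    obtain ⟨c, hc⟩ : b ∣ (a : A) := (ValuationRing.dvd_total b (a : A)).resolve_right
      (fun hab => hb (Ideal.mem_span_singleton.mpr hab))
    refine ⟨⟨b, hbI⟩, Ideal.mem_span_singleton_mul.mpr ⟨c, ?_, hc.symm⟩⟩
    rw [IsLocalRing.mem_maximalIdeal, mem_nonunits_iff]
    intro hu
    exact hb (Ideal.mem_span_singleton.mpr ((hu.dvd_mul_right).mp (hc ▸ dvd_refl (a : A))))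
  choose nxt hnxt using hstep
  let z : ℕ → I := fun n => nxt^[n] ⟨y, hyI⟩
  have hz : ∀ n, ∃ c ∈ IsLocalRing.maximalIdeal A, (z n : A) = z (n + 1) * c := fun n => by
    obtain ⟨c, hc, h⟩ := Ideal.mem_span_singleton_mul.mp (hnxt (z n))
    refine ⟨c, hc, ?_⟩
    rw [← h]
    show (nxt (z n) : A) * c = (nxt^[n + 1] ⟨y, hyI⟩ : I) * c
    rw [Function.iterate_succ_apply']
  have hz0 : ∀ n, (z n : A) ≠ 0 := fun n => by
    induction n with
    | zero => exact hy0
    | succ n ih =>
      intro h
      obtain ⟨c, _, hc⟩ := hz n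
      exact ih (by rw [hc, h, zero_mul])
  have hchain : ∀ i j, i < j → ∃ c ∈ IsLocalRing.maximalIdeal A, (z i : A) = z j * c := by
    intro i j hij
    induction j, hij using Nat.le_induction with
    | base => exact hz i
    | succ j _ ih =>
      obtain ⟨c, hc, hce⟩ := ih
      obtain ⟨d, -, hde⟩ := hz j
      exact ⟨d * c, Ideal.mul_mem_left _ d hc, by rw [hce, hde, mul_assoc]⟩
  have hymem : y ∈ IsLocalRing.maximalIdeal A := hnu y hyI
  have htr : Transcendental K (y : F) := transcendental_of_mem_of_inv_notMem hK y.2 fun hinv =>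
    hnu y hyI (IsUnit.of_mul_eq_one ⟨(y : F)⁻¹, hinv⟩ (Subtype.ext
      (mul_inv_cancel₀ (fun h : (y : F) = 0 => hy0 (Subtype.ext h)))))
  set n := Module.finrank K⟮(y : F)⟯ F with hn
  have hcard := card_le_finrank_adjoin (z := fun i : Fin (n + 1) => ((z i : A) : F)) htr
    (fun p hp => ?_)
  · rw [Fintype.card_fin] at hcard; omega
  · by_contra hne
    push Not at hne
    let s : Finset (Fin (n + 1)) := Finset.univ.filter fun i => (p i).coeff 0 ≠ 0
    have hs : s.Nonempty := by
      obtain ⟨i, hi⟩ := hne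
      exact ⟨i, by simp [s, hi]⟩
    set j := s.max' hs with hj
    have hjs : (p j).coeff 0 ≠ 0 := (Finset.mem_filter.mp (s.max'_mem hs)).2
    let q : Fin (n + 1) → A := fun i => ⟨aeval (y : F) (p i), aeval_mem_of_mem hK y.2 _⟩
    have hq0 : ∀ i, j < i → ∃ d : A, q i = y * d := fun i hi => by
      refine ⟨⟨aeval (y : F) (p i).divX, aeval_mem_of_mem hK y.2 _⟩, Subtype.ext ?_⟩
      have hci : (p i).coeff 0 = 0 := by
        by_contra h
        exact absurd (s.le_max' i (by simp [s, h])) (not_le.mpr hi)
      show aeval (y : F) (p i) = (y : F) * aeval (y : F) (p i).divX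
      conv_lhs => rw [← X_mul_divX_add (p i)]
      simp [hci]
    have hterm : ∀ i, i ≠ j →
        ∃ m ∈ IsLocalRing.maximalIdeal A, q i * (z i : A) = (z j : A) * m := fun i hi => by
      rcases lt_or_gt_of_ne hi with h | h
      · obtain ⟨c, hc, hce⟩ := hchain i j h
        exact ⟨q i * c, Ideal.mul_mem_left _ _ hc, by rw [hce]; ring⟩
      · obtain ⟨d, hd⟩ := hq0 i h
        obtain ⟨c, hc⟩ : (z j : A) ∣ y := by
          rcases (Nat.zero_le (j : ℕ)).eq_or_lt with h0 | h0
          · rw [← h0]; exact dvd_refl _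
          · obtain ⟨c, -, hce⟩ := hchain 0 j h0
            exact ⟨c, hce⟩
        refine ⟨c * d * z i, Ideal.mul_mem_left _ _ (hnu _ (z i).2), ?_⟩
        rw [hd, hc]; ring
    choose m hm hmeq using hterm
    let m' : Fin (n + 1) → A := fun i => if h : i = j then 0 else m i h
    have hkey : (z j : A) * (q j + ∑ i, m' i) = 0 := by
      apply Subtype.ext
      rw [ZeroMemClass.coe_zero, ← hp]
      have hi : ∀ i, (z j : A) * m' i = if i = j then 0 else q i * (z i : A) := fun i => by
        by_cases h : i = j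
        · simp [m', h]
        · simp [m', h, hmeq]
      rw [mul_add, Finset.mul_sum]
      simp only [hi]
      rw [Finset.sum_ite, Finset.sum_const_zero, zero_add, Finset.filter_ne',
        ← Finset.add_sum_erase _ _ (Finset.mem_univ j)]
      simp [q, mul_comm]
    have hq : q j ∈ IsLocalRing.maximalIdeal A := by
      rw [eq_neg_of_add_eq_zero_left ((mul_eq_zero.mp hkey).resolve_left (hz0 j))]
      refine neg_mem (Ideal.sum_mem _ fun i _ => ?_)
      by_cases h : i = j
      · simp [m', h]
      · simp only [m', dif_neg h]; exact hm i h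
    have hconst : (⟨algebraMap K F ((p j).coeff 0), hK _⟩ : A) ∈ IsLocalRing.maximalIdeal A := by
      have : q j = (⟨algebraMap K F ((p j).coeff 0), hK _⟩ : A) +
          y * ⟨aeval (y : F) (p j).divX, aeval_mem_of_mem hK y.2 _⟩ := by
        apply Subtype.ext
        show aeval (y : F) (p j) = algebraMap K F _ + (y : F) * aeval (y : F) (p j).divX
        conv_lhs => rw [← X_mul_divX_add (p j)]
        simp [add_comm]
      rw [this] at hq
      exact (Submodule.add_mem_iff_left _ (Ideal.mul_mem_right _ _ hymem)).mp hq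
    exact hconst (IsUnit.of_mul_eq_one ⟨algebraMap K F ((p j).coeff 0)⁻¹, hK _⟩
      (Subtype.ext (by
        show algebraMap K F _ * algebraMap K F _ = 1
        rw [← map_mul, mul_inv_cancel₀ hjs, map_one])))

/-- Every transcendental element has a pole. -/
theorem exists_place_ord_neg {z : F} (hz : Transcendental K z) :
    ∃ v : Place K F, v.ord z < 0 := by
  have hz0 : z ≠ 0 := fun h => hz (h ▸ isAlgebraic_zero)
  have hzi : Transcendental K z⁻¹ := fun h => hz (by simpa using h.inv)
  let R : Subring F := (Algebra.adjoin K ({z⁻¹} : Set F)).toSubring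
  let w : R := ⟨z⁻¹, Algebra.self_mem_adjoin_singleton K z⁻¹⟩
  have hI : Ideal.span {w} ≠ ⊤ := by
    rw [ne_eq, Ideal.span_singleton_eq_top]
    intro hu
    obtain ⟨⟨b, hb⟩, hwb⟩ := isUnit_iff_exists_inv.mp hu
    obtain ⟨p, rfl⟩ : b ∈ (aeval z⁻¹ : K[X] →ₐ[K] F).range := by
      rw [← Algebra.adjoin_singleton_eq_range_aeval]; exact hb
    have h1 : aeval z⁻¹ (X * p - 1 : K[X]) = 0 := by
      rw [map_sub, map_mul, aeval_X, map_one, sub_eq_zero]
      exact congrArg Subtype.val hwb
    have h2 := congrArg (fun r : K[X] => r.coeff 0) ((transcendental_iff.mp hzi) _ h1)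
    simp at h2
  obtain ⟨B, hRB, hB⟩ := Ideal.image_subset_nonunits_valuationSubring (Ideal.span {w}) hI
  have hzB : z ∉ B := by
    have h : z⁻¹ ∈ B.nonunits := hB ⟨w, Ideal.subset_span rfl, rfl⟩
    simpa [hz0] using B.inv_mem_nonunits_iff.mp h
  have hKB : ∀ a : K, algebraMap K F a ∈ B := fun a =>
    hRB ((Algebra.adjoin K ({z⁻¹} : Set F)).algebraMap_mem a)
  refine ⟨⟨B, hKB, fun h => hzB (h ▸ ValuationSubring.mem_top z),
    isPrincipalIdealRing_valuationSubring_of_ne_top B hKB⟩, ?_⟩
  by_contra hneg
  exact hzB ((mem_toValuationSubring_iff_ord _ hz0).mpr (not_lt.mp hneg))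

/-- Every transcendental element has a zero. -/
theorem exists_place_ord_pos {z : F} (hz : Transcendental K z) :
    ∃ v : Place K F, 0 < v.ord z := by
  obtain ⟨v, hv⟩ := exists_place_ord_neg (K := K) (z := z⁻¹) fun h => hz (by simpa using h.inv)
  exact ⟨v, by rw [v.ord_inv] at hv; omega⟩

/-- A nonzero element is algebraic iff it is a unit at every place. -/
theorem forall_ord_eq_zero_iff {f : F} :
    (∀ v : Place K F, v.ord f = 0) ↔ IsAlgebraic K f := by
  refine ⟨fun h => of_not_not fun hf => ?_, fun h v => of_not_not fun hv => ?_⟩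
  · obtain ⟨v, hv⟩ := exists_place_ord_neg hf
    exact hv.ne (h v)
  · exact transcendental_of_ord_ne_zero v hv h

/-- A function field has a place. -/
instance instNonemptyPlace : Nonempty (Place K F) := by
  obtain ⟨x, hx, -⟩ := IsFunctionField.exists_transcendental_finite (K := K) (F := F)
  exact ⟨(exists_place_ord_neg hx).choose⟩

end Fermat.Agent.FF
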