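import Fermat.Agent.FF.NormFormula
import Fermat.Prelude.Def_AlgebraicCurve_Correspondence

/-!
# Every embedding of function fields is finite and satisfies the Prelude's `…Along` inputs
-/

set_option autoImplicit false

noncomputable section

open AlgebraicCurve IntermediateField

namespace Fermat.Agent.FF

variable {K F F' : Type*} [Field K] [Field F] [Field F'] [Algebra K F] [Algebra K F']

/-- Two function fields: any extension between them is finite. -/
theorem module_finite_of_isFunctionField [Algebra F F'] [IsScalarTower K F F']
    [IsFunctionField K F] [IsFunctionField K F'] : Module.Finite F F' := by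
  obtain ⟨x, hx, -⟩ := IsFunctionField.exists_transcendental_finite (K := K) (F := F)
  have htr : Transcendental K (algebraMap F F' x) :=
    fun h => hx ((isAlgebraic_algebraMap_iff (algebraMap F F').injective).mp h)
  have := finite_adjoin_simple htr
  have hle : ∀ a : K⟮algebraMap F F' x⟯, ∃ b : F, algebraMap F F' b = a := by
    rintro ⟨a, ha⟩
    obtain ⟨r, s, rfl⟩ := (IntermediateField.mem_adjoin_simple_iff K a).mp ha
    exact ⟨Polynomial.aeval x r / Polynomial.aeval x s, by
      rw [map_div₀, ← Polynomial.aeval_algebraMap_apply, ← Polynomial.aeval_algebraMap_apply]⟩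
  obtain ⟨t, ht⟩ := ‹Module.Finite K⟮algebraMap F F' x⟯ F'›.fg_top
  refine ⟨⟨t, eq_top_iff.mpr fun y _ => ?_⟩⟩
  have hy : y ∈ Submodule.span K⟮algebraMap F F' x⟯ (t : Set F') := ht ▸ Submodule.mem_top
  induction hy using Submodule.span_induction with
  | mem z hz => exact Submodule.subset_span hz
  | zero => exact zero_mem _
  | add a b _ _ ha hb => exact add_mem (ha trivial) (hb trivial)
  | smul c z _ hz =>
    obtain ⟨b, hb⟩ := hle c
    rw [IntermediateField.smul_def, smul_eq_mul, ← hb, ← Algebra.smul_def]
    exact Submodule.smul_mem _ b (hz trivial)

/-- Every embedding of function fields is finite. -/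
theorem finiteAlong [IsFunctionField K F] [IsFunctionField K F'] (φ : F →ₐ[K] F') :
    FiniteAlong K φ := by
  let _ := algebraAlong φ
  have := isScalarTower_along φ
  exact module_finite_of_isFunctionField (K := K) (F := F) (F' := F')

/-- Every embedding of function fields is integral. -/
theorem isIntegralAlong [IsFunctionField K F] [IsFunctionField K F'] (φ : F →ₐ[K] F') :
    φ.toRingHom.IsIntegral := by
  let _ := algebraAlong φ
  have : Module.Finite F F' := finiteAlong φ
  exact (Algebra.IsIntegral.of_finite F F').isIntegral

/-- `∑ e f = [F' : F]` along any embedding. -/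
theorem fundamentalIdentityAlong [IsFunctionField K F] [IsFunctionField K F']
    [HasPrincipalDivisors K F'] (φ : F →ₐ[K] F') (hφ : φ.toRingHom.IsIntegral) :
    FundamentalIdentityAlong K φ hφ := by
  let _ := algebraAlong φ
  have := isScalarTower_along φ
  have : Module.Finite F F' := finiteAlong φ
  exact ⟨sum_ramificationIndex_mul_deg⟩

/-- The norm formula along any embedding. -/
theorem normFormulaAlong [IsFunctionField K F] [IsFunctionField K F'] (φ : F →ₐ[K] F')
    (hfin : FiniteAlong K φ) : NormFormulaAlong K φ hfin := by
  let _ := algebraAlong φ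
  have := isScalarTower_along φ
  have : Module.Finite F F' := hfin
  exact pushforwardNormFormula

/-- `finrankAlong` computed on pole divisors. -/
theorem degree_poleDiv_along [IsFunctionField K F] [IsFunctionField K F'] (φ : F →ₐ[K] F')
    {x : F} (hx : Transcendental K x) :
    Divisor.degree (poleDiv K (φ x)) = (finrankAlong K φ : ℤ) * Divisor.degree (poleDiv K x) := by
  let _ := algebraAlong φ
  have := isScalarTower_along φ
  have : Module.Finite F F' := finiteAlong φ
  exact degree_poleDiv_algebraMap F F' hx

end Fermat.Agent.FF
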