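import Fermat.Agent.FF.Deriv
import Fermat.Agent.FF.Along
import Fermat.Agent.MFGenus.FieldDegree
import Fermat.Agent.Igusa.FullField
import Fermat.Prelude.Def_ModularCurve_HeckeOperatorTotal

/-!
# The modular function fields are function fields; the Hecke inputs hold
-/

set_option autoImplicit false

noncomputable section

open AlgebraicCurve ModularCurve IntermediateField

namespace Fermat.Agent.FF

/-- An embedding of `ℚ̄` into `ℂ`. -/
def qbarToComplex : AlgebraicClosure ℚ →+* ℂ :=
  have : Algebra.IsAlgebraic ℚ (AlgebraicClosure ℚ) := AlgebraicClosure.isAlgebraic ℚ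
  (IsAlgClosed.lift : AlgebraicClosure ℚ →ₐ[ℚ] ℂ).toRingHom

section

variable {L : Type*} [Field L] [Algebra ℚ L] (ι : L →+* ℂ) (N : ℕ) [NeZero N]

include ι in
theorem isFunctionField_laurentBaseChange :
    IsFunctionField L (laurentBaseChange L (modularFunctionFieldFull N)) :=
  ⟨⟨MFGenus.jElt L N, MFGenus.transcendental_jElt ι, (MFGenus.finite_finrank_le (N := N) ι).1⟩⟩

include ι in
/-- The inputs of `heckeOperatorAlong` hold whenever `L` embeds in `ℂ`. -/
theorem heckeInputsAlong_of_embedding (ℓ : ℕ) [NeZero ℓ] : HeckeInputsAlong L N ℓ := by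
  have : NeZero (N * ℓ) := ⟨mul_ne_zero (NeZero.ne N) (NeZero.ne ℓ)⟩
  have := isFunctionField_laurentBaseChange ι N
  have := isFunctionField_laurentBaseChange ι (N * ℓ)
  exact ⟨isIntegralAlong _, isIntegralAlong _, inferInstance, finiteAlong _,
    fundamentalIdentityAlong _ _, normFormulaAlong _ _⟩

end

/-- `ℚ̄(X₀(N))` is a function field; hence the Prelude's `HasPrincipalDivisors` holds for it. -/
instance instIsFunctionFieldModularBar (N : ℕ) [NeZero N] :
    IsFunctionField (AlgebraicClosure ℚ) (modularFunctionFieldBar N) :=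
  isFunctionField_laurentBaseChange qbarToComplex N

theorem heckeInputsAlong_qbar (N ℓ : ℕ) [NeZero N] [NeZero ℓ] :
    HeckeInputsAlong (AlgebraicClosure ℚ) N ℓ :=
  heckeInputsAlong_of_embedding qbarToComplex N ℓ

theorem transcendental_jC (k : Type*) [Field k] (N : ℕ) [NeZero N] :
    Transcendental k (Igusa.jC k N) := by
  rw [transcendental_iff]
  intro p hp
  refine P2MW.S_ModularCurve_coeff_jqModC_pow_self.ModularCurve.CharLRows.aeval_jqModC_eq_zero k ?_
  have h := congrArg (modularFunctionFieldFullC k N).val hp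
  rw [← Polynomial.aeval_algHom_apply, map_zero] at h
  exact h

/-- The reduction `k(X₀(N))` is a function field when `N` is invertible in `k`. -/
theorem isFunctionField_fullC (k : Type*) [Field k] [IsAlgClosed k] (N : ℕ) [NeZero N]
    (hN : (N : k) ≠ 0) :
    IsFunctionField k (modularFunctionFieldFullC k N) :=
  ⟨⟨Igusa.jC k N, transcendental_jC k N, Igusa.finiteDimensional_fullC N hN⟩⟩

end Fermat.Agent.FF
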