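import Fermat.Agent.FF.Local
import Fermat.Agent.FF.Places
import Fermat.Prelude.Def_AlgebraicCurve_IsCurveOver

/-!
# Degree of principal divisors, Riemann–Roch spaces, Riemann's inequality
-/

set_option autoImplicit false

noncomputable section

open AlgebraicCurve IsLocalRing Polynomial IntermediateField
open scoped IntermediateField.algebraAdjoinAdjoin

namespace Fermat.Agent.FF

variable {K F : Type*} [Field K] [Field F] [Algebra K F] [IsFunctionField K F]

omit [IsFunctionField K F] in
theorem aeval_mem_ordGE_zero (v : Place K F) {x : F} (hx : x ∈ ordGE v 0) (p : K[X]) :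
    aeval x p ∈ ordGE v 0 := by
  rw [← mem_toValuationSubring_iff] at hx ⊢
  exact aeval_mem_of_mem v.algebraMap_mem' hx p

omit [IsFunctionField K F] in
theorem aeval_sub_const_mem_ordGE (v : Place K F) {x : F} {n : ℤ} (hn : 0 ≤ n)
    (hx : x ∈ ordGE v n) (p : K[X]) :
    aeval x p - algebraMap K F (p.coeff 0) ∈ ordGE v n := by
  conv => arg 2; arg 1; rw [← X_mul_divX_add p]
  simp only [map_add, map_mul, aeval_X, aeval_C, add_sub_cancel_right]
  simpa using mul_mem_ordGE v hx (aeval_mem_ordGE_zero v (ordGE_antitone v hn hx) p.divX)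

/-- Residually independent families at finitely many zeros of `x` have total weighted size at
most `[F : K(x)]`. -/
theorem sum_ord_mul_card_le {x : F} (T : Finset (Place K F)) (hT : ∀ v ∈ T, 0 < v.ord x)
    (hx : Transcendental K x) {J : T → Type*} [∀ w, Fintype (J w)]
    (s : ∀ w : T, J w → ordGE (w : Place K F) 0)
    (hs : ∀ w : T, LinearIndependent K (residueMap (w : Place K F) ∘ s w)) :
    ∑ w : T, ((w : Place K F).ord x).toNat * Fintype.card (J w) ≤ Module.finrank K⟮x⟯ F := by
  classical
  choose t ht using fun w : T => exists_uniformizer (w : Place K F)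
  let e : Place K F → ℕ := fun v => (v.ord x).toNat
  obtain ⟨z, hz, hz'⟩ := exists_approx_family T e t (fun w j => (s w j : F))
  have hxe : ∀ w : T, x ∈ ordGE (w : Place K F) (e w) := fun w =>
    mem_ordGE_of_le_ord _ (by simp [e, Int.toNat_of_nonneg (hT w w.2).le])
  have hx0 : ∀ w : T, x ∈ ordGE (w : Place K F) 0 := fun w =>
    ordGE_antitone _ (by positivity) (hxe w)
  have h := card_le_finrank_adjoin hx (z := z) fun p hp => by
    refine approx_indep T e t (fun w j => (s w j : F)) ht (fun w j => (s w j).2) hz hz'
      (φ := fun p : K[X] => aeval x p) {p | p.coeff 0 = 0}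
      (fun p w => aeval_mem_ordGE_zero _ (hx0 w) p) (fun p hp0 w => ?_) (fun w c hc => ?_) p
      (fun w => by rw [hp]; exact zero_mem _)
    · have := aeval_sub_const_mem_ordGE _ (by positivity) (hxe w) p
      simpa [show p.coeff 0 = 0 from hp0] using this
    · refine eq_zero_of_sum_smul_mem_ordGE_one _ (hs w) (fun j => (c j).coeff 0) ?_
      have hdiff : ∑ j, (aeval x (c j) - algebraMap K F ((c j).coeff 0)) * (s w j : F)
          ∈ ordGE (w : Place K F) 1 := by
        refine Submodule.sum_mem _ fun j _ => ?_
        have hx1 : x ∈ ordGE (w : Place K F) 1 := mem_ordGE_of_le_ord _ (hT w w.2)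
        simpa using mul_mem_ordGE _
          (aeval_sub_const_mem_ordGE _ zero_le_one hx1 (c j)) (s w j).2
      simp only [sub_mul, Finset.sum_sub_distrib] at hdiff
      rw [Submodule.sub_mem_iff_right _ hc] at hdiff
      simpa [Algebra.smul_def] using hdiff
  simpa [Fintype.card_sigma, e] using h

/-- Residue fields of places are finite over the constant field. -/
instance instFiniteResidueField (v : Place K F) : Module.Finite K v.ResidueField := by
  classical
  obtain ⟨t, ht0, ht⟩ := exists_uniformizer v
  have htr := transcendental_of_ord_ne_zero v (f := t) (by omega)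
  refine Module.finite_of_rank_eq_nat.{_} (R := K) (M := v.ResidueField)
    (n := (Module.rank K v.ResidueField).toNat) ?_
  refine (Cardinal.cast_toNat_of_lt_aleph0 ?_).symm
  refine lt_of_le_of_lt (rank_le (R := K) (n := Module.finrank K⟮t⟯ F) ?_)
    (Cardinal.natCast_lt_aleph0)
  intro S hS
  choose s hs using fun r : S => residueMap_surjective v (r : v.ResidueField)
  have h := sum_ord_mul_card_le (x := t) {v} (by simp [ht]) htr
    (J := fun _ => S) (fun w r => ⟨s r, by
      obtain ⟨w, hw⟩ := w; rw [Finset.mem_singleton] at hw; subst hw; exact (s r).2⟩)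
    (fun w => by
      obtain ⟨w, hw⟩ := w
      obtain rfl : w = v := by simpa using hw
      convert hS using 1
      funext r
      exact hs r)
  simpa [ht] using h

theorem deg_pos (v : Place K F) : 0 < v.deg := Module.finrank_pos

/-- Places have degree one over an algebraically closed constant field. -/
theorem deg_eq_one [IsAlgClosed K] (v : Place K F) : v.deg = 1 :=
  v.deg_eq_one_of_isAlgClosed_of_finite

/-- `Σ v(x) deg v ≤ [F : K(x)]` over any finite set of zeros of `x`. -/
theorem sum_ord_mul_deg_le {x : F} (hx : Transcendental K x) (T : Finset (Place K F))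
    (hT : ∀ v ∈ T, 0 < v.ord x) :
    ∑ v ∈ T, v.ord x * (v.deg : ℤ) ≤ Module.finrank K⟮x⟯ F := by
  classical
  choose s hs using fun (w : T) (j : Fin (w : Place K F).deg) =>
    residueMap_surjective (w : Place K F) (Module.finBasis K (w : Place K F).ResidueField j)
  have hindep : ∀ w : T, LinearIndependent K (residueMap (w : Place K F) ∘ s w) := fun w => by
    rw [show residueMap (w : Place K F) ∘ s w = Module.finBasis K (w : Place K F).ResidueField
      from funext (hs w)]
    exact (Module.finBasis K (w : Place K F).ResidueField).linearIndependent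
  have h := sum_ord_mul_card_le T hT hx s hindep
  simp only [Fintype.card_fin] at h
  have h' : ((∑ w : T, ((w : Place K F).ord x).toNat * (w : Place K F).deg : ℕ) : ℤ)
      ≤ Module.finrank K⟮x⟯ F := by exact_mod_cast h
  refine le_of_eq_of_le ?_ h'
  rw [Nat.cast_sum, ← Finset.sum_coe_sort T fun v => v.ord x * (v.deg : ℤ)]
  exact Finset.sum_congr rfl fun w _ => by
    rw [Nat.cast_mul, Int.toNat_of_nonneg (hT w w.2).le]

/-- An element has finitely many zeros. -/
theorem finite_setOf_ord_pos (x : F) : {v : Place K F | 0 < v.ord x}.Finite := by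
  by_cases hx : Transcendental K x
  · by_contra hinf
    obtain ⟨T, hTs, hT⟩ :=
      Set.Infinite.exists_subset_card_eq hinf (Module.finrank K⟮x⟯ F + 1)
    have h := sum_ord_mul_deg_le hx T fun v hv => hTs hv
    have h1 : ∑ v ∈ T, (1 : ℤ) ≤ ∑ v ∈ T, v.ord x * (v.deg : ℤ) :=
      Finset.sum_le_sum fun v hv => one_le_mul_of_one_le_of_one_le
        (Int.add_one_le_iff.mpr (hTs hv)) (by exact_mod_cast deg_pos v)
    rw [Finset.sum_const, hT, nsmul_one] at h1
    push_cast at h1
    omega
  · exact Set.Finite.subset Set.finite_empty fun v hv =>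
      hx (transcendental_of_ord_ne_zero v (ne_of_gt hv))

theorem finite_setOf_ord_neg (x : F) : {v : Place K F | v.ord x < 0}.Finite := by
  refine (finite_setOf_ord_pos (K := K) x⁻¹).subset fun v hv => ?_
  rw [Set.mem_ofPred_eq, v.ord_inv]
  simpa using hv

variable (K) in
/-- The pole divisor of an element. -/
def poleDiv (x : F) : Divisor K F :=
  Finsupp.onFinset (finite_setOf_ord_neg (K := K) x).toFinset (fun v => max (-v.ord x) 0)
    fun v hv => by
      simp only [Set.Finite.mem_toFinset, Set.mem_ofPred_eq]
      by_contra h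
      exact hv (max_eq_right (by omega))

@[simp]
theorem poleDiv_apply (x : F) (v : Place K F) : poleDiv K x v = max (-v.ord x) 0 := rfl

theorem poleDiv_nonneg (x : F) : 0 ≤ poleDiv K x := fun v => by simp

omit [IsFunctionField K F] in
theorem degree_eq_sum (D : Divisor K F) :
    Divisor.degree D = ∑ v ∈ D.support, D v * (v.deg : ℤ) := by
  simp [Divisor.degree, Finsupp.sum]

omit [IsFunctionField K F] in
theorem degree_mono {D E : Divisor K F} (h : D ≤ E) :
    Divisor.degree D ≤ Divisor.degree E := by
  rw [← sub_nonneg, ← map_sub, degree_eq_sum]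
  refine Finset.sum_nonneg fun v _ => mul_nonneg ?_ (Int.natCast_nonneg _)
  have := h v
  simp only [Finsupp.sub_apply]
  omega

theorem degree_poleDiv_le {x : F} (hx : Transcendental K x) :
    Divisor.degree (poleDiv K x) ≤ Module.finrank K⟮x⟯ F := by
  have hxi : Transcendental K x⁻¹ := fun h => hx (by simpa using h.inv)
  have hle := sum_ord_mul_deg_le hxi (poleDiv K x).support fun v hv => by
    rw [Finsupp.mem_support_iff, poleDiv_apply] at hv
    rw [v.ord_inv]
    by_contra h
    exact hv (max_eq_right (by omega))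
  have hadj : K⟮x⁻¹⟯ = K⟮x⟯ := by
    refine le_antisymm ?_ ?_ <;> rw [adjoin_simple_le_iff]
    · exact inv_mem (mem_adjoin_simple_self K x)
    · simpa using inv_mem (mem_adjoin_simple_self K x⁻¹)
  rw [hadj] at hle
  rw [degree_eq_sum]
  refine le_of_eq_of_le (Finset.sum_congr rfl fun v hv => ?_) hle
  rw [Finsupp.mem_support_iff, poleDiv_apply] at hv
  rw [poleDiv_apply, v.ord_inv, max_eq_left]
  by_contra h
  exact hv (max_eq_right (by omega))

omit [IsFunctionField K F] in
theorem mem_riemannRochSpace {D : Divisor K F} {f : F} :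
    f ∈ riemannRochSpace D ↔ ∀ v : Place K F, f ∈ ordGE v (-D v) := by
  simp [mem_riemannRochSpace_iff, mem_ordGE]

omit [IsFunctionField K F] in
theorem riemannRochSpace_mono {D E : Divisor K F} (h : D ≤ E) :
    riemannRochSpace D ≤ riemannRochSpace E := fun f hf => by
  rw [mem_riemannRochSpace] at hf ⊢
  exact fun v => ordGE_antitone v (by have := h v; omega) (hf v)

/-- `L(0)` embeds in the residue field of any place. -/
theorem finite_riemannRochSpace_zero :
    Module.Finite K (riemannRochSpace (0 : Divisor K F)) := by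
  obtain ⟨v⟩ := (instNonemptyPlace : Nonempty (Place K F))
  let φ : riemannRochSpace (0 : Divisor K F) →ₗ[K] v.ResidueField :=
    (residueMap v).comp (Submodule.inclusion fun f hf => by
      simpa using mem_riemannRochSpace.mp hf v)
  refine Module.Finite.of_injective φ ?_
  rw [← LinearMap.ker_eq_bot, LinearMap.ker_eq_bot']
  intro f hf
  by_contra hne
  have hf0 : (f : F) ≠ 0 := fun h => hne (Subtype.ext h)
  have h1 : (f : F) ∈ ordGE v 1 := (residueMap_eq_zero_iff v _).mp hf
  rw [mem_ordGE_of_ne_zero v hf0] at h1
  obtain ⟨w, hw⟩ := exists_place_ord_neg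
    (transcendental_of_ord_ne_zero v (f := (f : F)) (by omega))
  have h2 : (f : F) ∈ ordGE w (-(0 : Divisor K F) w) := mem_riemannRochSpace.mp f.2 w
  simp [mem_ordGE_of_ne_zero w hf0] at h2
  omega

theorem riemannRochSpace_step (D : Divisor K F) (v : Place K F)
    [Module.Finite K (riemannRochSpace D)] :
    Module.Finite K (riemannRochSpace (D + Finsupp.single v 1)) ∧
      Module.finrank K (riemannRochSpace (D + Finsupp.single v 1)) ≤
        Module.finrank K (riemannRochSpace D) + v.deg := by
  classical
  set E := D + Finsupp.single v 1 with hE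
  have hDE : D ≤ E := le_add_of_nonneg_right (by simp)
  obtain ⟨t, ht0, ht⟩ := exists_ne_zero_ord_eq v (D v + 1)
  let φ : riemannRochSpace E →ₗ[K] v.ResidueField :=
    (residueMap v).comp (LinearMap.codRestrict (ordGE v 0)
      ((LinearMap.mulLeft K t).comp (riemannRochSpace E).subtype) fun f => by
        have := mem_riemannRochSpace.mp f.2 v
        rw [show -E v = -(D v + 1) by simp [hE]] at this
        simpa [ht] using mul_mem_ordGE v (mem_ordGE_of_le_ord v (ht.ge : D v + 1 ≤ v.ord t)) this)
  have hker : LinearMap.ker φ = (riemannRochSpace D).comap (riemannRochSpace E).subtype := by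
    ext f
    rw [LinearMap.mem_ker, LinearMap.comp_apply, residueMap_eq_zero_iff, Submodule.mem_comap]
    show t * (f : F) ∈ ordGE v 1 ↔ (f : F) ∈ riemannRochSpace D
    rw [show (1 : ℤ) = v.ord t + (-D v) by omega, mul_mem_ordGE_iff v ht0, mem_riemannRochSpace]
    refine ⟨fun h w => ?_, fun h => h v⟩
    rcases eq_or_ne w v with rfl | hw
    · exact h
    · simpa [hE, Finsupp.single_eq_of_ne hw] using mem_riemannRochSpace.mp f.2 w
  let ek : LinearMap.ker φ ≃ₗ[K] riemannRochSpace D :=
    (LinearEquiv.ofEq _ _ hker).trans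
      (Submodule.comapSubtypeEquivOfLe (riemannRochSpace_mono hDE))
  have : Module.Finite K (LinearMap.ker φ) := Module.Finite.equiv ek.symm
  have : Module.Finite K (riemannRochSpace E ⧸ LinearMap.ker φ) :=
    Module.Finite.equiv φ.quotKerEquivRange.symm
  have hfin : Module.Finite K (riemannRochSpace E) :=
    Module.Finite.of_submodule_quotient (LinearMap.ker φ)
  refine ⟨hfin, ?_⟩
  rw [← LinearMap.finrank_range_add_finrank_ker φ, ek.finrank_eq, add_comm]
  exact Nat.add_le_add_left (Submodule.finrank_le _) _

omit [IsFunctionField K F] in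
/-- Induction along an increasing chain of divisors. -/
theorem divisor_le_induction {D : Divisor K F} {P : Divisor K F → Prop} (base : P D)
    (step : ∀ (E : Divisor K F) (v : Place K F), D ≤ E → P E → P (E + Finsupp.single v 1))
    {E : Divisor K F} (h : D ≤ E) : P E := by
  classical
  suffices key : ∀ (n : ℕ) (E : Divisor K F), D ≤ E →
      ∑ v ∈ (E - D).support, ((E - D) v).toNat = n → P E from key _ E h rfl
  intro n
  induction n with
  | zero =>
    intro E h hn
    suffices hED : E = D from hED ▸ base
    ext v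
    have hv := h v
    by_contra hne
    have hmem : v ∈ (E - D).support := by simp [sub_eq_zero, hne]
    have hzero := Finset.sum_eq_zero_iff.mp hn v hmem
    simp only [Finsupp.sub_apply] at hzero
    omega
  | succ n ih =>
    intro E h hn
    obtain ⟨v, hv, hv0⟩ : ∃ v ∈ (E - D).support, ((E - D) v).toNat ≠ 0 :=
      Finset.exists_ne_zero_of_sum_ne_zero (by omega)
    simp only [Finsupp.sub_apply, ne_eq, Int.toNat_eq_zero] at hv0
    set E' := E - Finsupp.single v 1 with hE'
    have hle : D ≤ E' := fun w => by
      rcases eq_or_ne w v with rfl | hw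
      · simp [hE']; omega
      · simpa [hE', Finsupp.single_eq_of_ne hw] using h w
    have hsum : ∑ w ∈ (E' - D).support, ((E' - D) w).toNat = n := by
      have hsub : (E' - D).support ⊆ (E - D).support := fun w hw => by
        rcases eq_or_ne w v with rfl | hwv
        · exact hv
        · simpa [hE', Finsupp.single_eq_of_ne hwv] using hw
      rw [Finset.sum_subset hsub fun w _ hw => by
        rw [Finsupp.notMem_support_iff.mp hw]; rfl]
      rw [← Finset.add_sum_erase _ _ hv] at hn ⊢
      have hrest : ∑ w ∈ (E - D).support.erase v, ((E' - D) w).toNat =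
          ∑ w ∈ (E - D).support.erase v, ((E - D) w).toNat :=
        Finset.sum_congr rfl fun w hw => by
          simp [hE', Finsupp.single_eq_of_ne (Finset.ne_of_mem_erase hw)]
      simp [hE'] at hrest hn ⊢
      omega
    have := step E' v hle (ih E' hle hsum)
    rwa [hE', sub_add_cancel] at this

/-- Riemann–Roch spaces are finite-dimensional. -/
instance instFiniteRiemannRochSpace (D : Divisor K F) : Module.Finite K (riemannRochSpace D) := by
  let E : Divisor K F := D.mapRange (fun a => max a 0) (by simp)
  have hE : Module.Finite K (riemannRochSpace E) :=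
    divisor_le_induction (D := (0 : Divisor K F))
      (P := fun E => Module.Finite K (riemannRochSpace E))
      finite_riemannRochSpace_zero
      (fun E v _ hE => haveI := hE; (riemannRochSpace_step E v).1)
      (fun v => by simp [E])
  exact Submodule.finiteDimensional_of_le (S₂ := riemannRochSpace E)
    (riemannRochSpace_mono fun v => by simp [E])

/-- The dimension `l(D)`. -/
def ell (D : Divisor K F) : ℕ := Module.finrank K (riemannRochSpace D)

theorem ell_mono {D E : Divisor K F} (h : D ≤ E) : ell D ≤ ell E :=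
  Submodule.finrank_mono (riemannRochSpace_mono h)

/-- `l(D) - deg D` is antitone. -/
theorem ell_sub_degree_antitone {D E : Divisor K F} (h : D ≤ E) :
    (ell E : ℤ) - Divisor.degree E ≤ (ell D : ℤ) - Divisor.degree D := by
  refine divisor_le_induction (D := D)
    (P := fun E => (ell E : ℤ) - Divisor.degree E ≤ (ell D : ℤ) - Divisor.degree D)
    le_rfl (fun E v _ hE => ?_) h
  have h1 := (riemannRochSpace_step E v).2
  simp only [map_add, Divisor.degree_single, one_mul]
  change (ell (E + Finsupp.single v 1)) ≤ ell E + v.deg at h1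
  omega

theorem ell_le_degree_add {D : Divisor K F} (h : 0 ≤ D) :
    (ell D : ℤ) ≤ Divisor.degree D + ell (0 : Divisor K F) := by
  have := ell_sub_degree_antitone h
  simp only [map_zero, sub_zero] at this
  omega

/-- An element times a nonzero polynomial in `x` has poles only at the poles of `x`. -/
theorem exists_aeval_mul_mem {x : F} (hx : Transcendental K x) (u : F) :
    ∃ p : K[X], p ≠ 0 ∧ ∀ v : Place K F, 0 ≤ v.ord x → aeval x p * u ∈ ordGE v 0 := by
  have := finite_adjoin_simple hx
  have halg : IsAlgebraic (Algebra.adjoin K ({x} : Set F)) u :=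
    (IsFractionRing.isAlgebraic_iff (Algebra.adjoin K ({x} : Set F)) K⟮x⟯ F).mpr
      (Algebra.IsAlgebraic.isAlgebraic u)
  obtain ⟨c, hc0, hint⟩ := halg.exists_integral_multiple
  obtain ⟨p, hp⟩ : (c : F) ∈ (aeval x : K[X] →ₐ[K] F).range := by
    rw [← Algebra.adjoin_singleton_eq_range_aeval]; exact c.2
  have hp' : aeval x p = (c : F) := hp
  refine ⟨p, fun h => hc0 (Subtype.ext (by rw [← hp', h, map_zero]; rfl)), fun v hv => ?_⟩
  have hxv : x ∈ ordGE v 0 := mem_ordGE_of_le_ord v hv
  have hle : (Algebra.adjoin K ({x} : Set F)).toSubring ≤ v.toValuationSubring.toSubring :=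
    fun a ha => by
      change a ∈ Algebra.adjoin K ({x} : Set F) at ha
      rw [Algebra.adjoin_singleton_eq_range_aeval] at ha
      obtain ⟨q, rfl⟩ := ha
      exact aeval_mem_of_mem v.algebraMap_mem' ((mem_toValuationSubring_iff v).mpr hxv) q
  rw [← mem_toValuationSubring_iff, hp']
  obtain ⟨q, hq, hq0⟩ := hint
  let ι : Algebra.adjoin K ({x} : Set F) →+* v.toValuationSubring :=
    Subring.inclusion hle
  have h1 : IsIntegral v.toValuationSubring ((c : F) * u) := by
    refine ⟨q.map ι, hq.map _, ?_⟩
    rw [eval₂_map, show (algebraMap v.toValuationSubring F).comp ι =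
      algebraMap (Algebra.adjoin K ({x} : Set F)) F from RingHom.ext fun _ => rfl]
    simpa [Subalgebra.smul_def] using hq0
  obtain ⟨b, hb⟩ := IsIntegrallyClosed.isIntegral_iff.mp h1
  exact hb ▸ b.2

/-- For large multiples of the pole divisor of `x`, `l` grows at least like `[F : K(x)]`. -/
theorem exists_ell_poleDiv_lower_bound {x : F} (hx : Transcendental K x) :
    ∃ C : ℕ, ∀ l : ℕ, (l + 1) * Module.finrank K⟮x⟯ F ≤ ell ((l + C) • poleDiv K x) := by
  classical
  have := finite_adjoin_simple hx
  set n := Module.finrank K⟮x⟯ F with hn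
  let b := Module.finBasis K⟮x⟯ F
  choose p hp0 hp using fun i => exists_aeval_mul_mem hx (b i)
  let u : Fin n → F := fun i => aeval x (p i) * b i
  set P := (finite_setOf_ord_neg (K := K) x).toFinset
  set C : ℕ := ∑ i, ∑ v ∈ P, (-v.ord (u i)).toNat with hC
  refine ⟨C, fun l => ?_⟩
  have hmem : ∀ q : Fin (l + 1) × Fin n,
      x ^ (q.1 : ℕ) * u q.2 ∈ riemannRochSpace ((l + C) • poleDiv K x) := by
    intro q
    rw [mem_riemannRochSpace]
    intro v
    simp only [Finsupp.coe_smul, Pi.smul_apply, poleDiv_apply, nsmul_eq_mul]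
    by_cases hv : 0 ≤ v.ord x
    · rw [max_eq_right (by omega), mul_zero, neg_zero]
      exact ordGE_antitone v (by simp)
        (mul_mem_ordGE v (pow_mem_ordGE v (mem_ordGE_of_le_ord v hv) _) (hp q.2 v hv))
    · rw [max_eq_left (by omega)]
      refine ordGE_antitone v ?_ (mul_mem_ordGE v
        (pow_mem_ordGE v (mem_ordGE_of_le_ord v le_rfl) _) (mem_ordGE_of_le_ord v le_rfl))
      have hvP : v ∈ P := by simpa [P] using hv
      have hb1 : (-v.ord (u q.2)).toNat ≤ C :=
        le_trans (Finset.single_le_sum (f := fun v => (-v.ord (u q.2)).toNat)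
          (fun _ _ => Nat.zero_le _) hvP)
          (Finset.single_le_sum (f := fun i => ∑ v ∈ P, (-v.ord (u i)).toNat)
            (fun _ _ => Nat.zero_le _) (Finset.mem_univ q.2))
      have h1 : 1 ≤ -v.ord x := by omega
      have h2 : (q.1 : ℤ) * (-v.ord x) ≤ (l : ℤ) * (-v.ord x) :=
        mul_le_mul_of_nonneg_right (by have := q.1.2; omega) (by omega)
      have h3 : (C : ℤ) ≤ (C : ℤ) * (-v.ord x) := le_mul_of_one_le_right (by positivity) h1
      push_cast
      linarith [show -v.ord (u q.2) ≤ (C : ℤ) by omega]
  have hu : LinearIndependent K⟮x⟯ u := by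
    have hne : ∀ i, aeval x (p i) ≠ 0 := fun i => transcendental_aeval_ne_zero hx (hp0 i)
    have := b.linearIndependent.units_smul fun i => Units.mk0
      (⟨aeval x (p i), algebra_adjoin_le_adjoin K {x} (aeval_mem_adjoin_singleton K x)⟩ : K⟮x⟯)
      (fun h => hne i (congrArg Subtype.val h))
    convert this using 1
    funext i
    rfl
  have hli : LinearIndependent K fun q : Fin (l + 1) × Fin n =>
      (⟨x ^ (q.1 : ℕ) * u q.2, hmem q⟩ : riemannRochSpace ((l + C) • poleDiv K x)) := by
    refine LinearIndependent.of_comp (riemannRochSpace _).subtype ?_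
    have hpow : LinearIndependent K fun a : Fin (l + 1) =>
        (⟨x ^ (a : ℕ), pow_mem (mem_adjoin_simple_self K x) _⟩ : K⟮x⟯) := by
      refine LinearIndependent.of_comp (K⟮x⟯.val.toLinearMap) ?_
      rw [Fintype.linearIndependent_iff]
      intro g hg a
      have h0 : aeval x (∑ a : Fin (l + 1), Polynomial.monomial (a : ℕ) (g a)) = 0 := by
        simpa [Algebra.smul_def, aeval_monomial] using hg
      have := congrArg (fun r : K[X] => r.coeff a) ((transcendental_iff.mp hx) _ h0)
      simpa [Polynomial.coeff_monomial, Fin.val_inj, Finset.sum_ite_eq'] using this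
    exact (linearIndependent_smul hpow hu :)
  have := hli.fintype_card_le_finrank
  simpa [ell] using this

/-- The degree of the pole divisor of `x` is `[F : K(x)]`. -/
theorem degree_poleDiv {x : F} (hx : Transcendental K x) :
    Divisor.degree (poleDiv K x) = Module.finrank K⟮x⟯ F := by
  refine le_antisymm (degree_poleDiv_le hx) ?_
  by_contra hlt
  obtain ⟨C, hC⟩ := exists_ell_poleDiv_lower_bound hx
  set d := Divisor.degree (poleDiv K x) with hd
  set n : ℤ := (Module.finrank K⟮x⟯ F : ℤ)
  have hd0 : 0 ≤ d := by
    simpa using degree_mono (poleDiv_nonneg (K := K) x)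
  set l : ℕ := ell (0 : Divisor K F) + C * d.toNat
  have h1 : ((l + 1) * Module.finrank K⟮x⟯ F : ℕ) ≤ (ell ((l + C) • poleDiv K x) : ℤ) := by
    exact_mod_cast hC l
  have h2 := ell_le_degree_add (nsmul_nonneg (poleDiv_nonneg (K := K) x) (l + C))
  rw [map_nsmul, nsmul_eq_mul, ← hd] at h2
  push_cast at h1 h2
  have h3 : ((l : ℤ) + 1) * (d + 1) ≤ ((l : ℤ) + 1) * n :=
    mul_le_mul_of_nonneg_left (by omega) (by positivity)
  have h4 : (l : ℤ) = ell (0 : Divisor K F) + C * d := by
    simp [l, Int.toNat_of_nonneg hd0]
  nlinarith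

/-- Every nonzero element has a divisor, of degree zero. -/
instance instHasPrincipalDivisors : HasPrincipalDivisors K F where
  exists_divisor f hf := by
    refine ⟨poleDiv K f⁻¹ - poleDiv K f, fun v => ?_, ?_⟩
    · simp only [Finsupp.sub_apply, poleDiv_apply, v.ord_inv, neg_neg]
      omega
    · by_cases hft : Transcendental K f
      · have hfi : Transcendental K f⁻¹ := fun h => hft (by simpa using h.inv)
        rw [map_sub, degree_poleDiv hfi, degree_poleDiv hft]
        have hadj : K⟮f⁻¹⟯ = K⟮f⟯ := by
          refine le_antisymm ?_ ?_ <;> rw [adjoin_simple_le_iff]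
          · exact inv_mem (mem_adjoin_simple_self K f)
          · simpa using inv_mem (mem_adjoin_simple_self K f⁻¹)
        rw [hadj, sub_self]
      · have h0 : poleDiv K f⁻¹ - poleDiv K f = 0 := Finsupp.ext fun v => by
          have h1 : v.ord f = 0 := of_not_not fun h =>
            hft (transcendental_of_ord_ne_zero v h)
          simp [v.ord_inv, h1]
        rw [h0, map_zero]

variable (K) in
/-- The divisor of an element. -/
def divOf (f : F) : Divisor K F := poleDiv K f⁻¹ - poleDiv K f

@[simp]
theorem divOf_apply (f : F) (v : Place K F) : divOf K f v = v.ord f := by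
  simp only [divOf, Finsupp.sub_apply, poleDiv_apply, v.ord_inv, neg_neg]
  omega

/-- Principal divisors have degree zero. -/
theorem degree_divOf (f : F) : Divisor.degree (divOf K f) = 0 := by
  rcases eq_or_ne f 0 with rfl | hf
  · simp [divOf]
  · obtain ⟨D, hD, hdeg⟩ := HasPrincipalDivisors.exists_divisor (K := K) f hf
    rw [show divOf K f = D from Finsupp.ext fun v => by rw [divOf_apply, hD v]]
    exact hdeg

/-- `l(D) = 0` in negative degree. -/
theorem ell_eq_zero_of_degree_neg {D : Divisor K F} (h : Divisor.degree D < 0) : ell D = 0 := by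
  rw [ell, Submodule.finrank_eq_zero, Submodule.eq_bot_iff]
  intro f hf
  by_contra hf0
  have hle : -D ≤ divOf K f := fun v => by
    have := mem_riemannRochSpace.mp hf v
    rw [mem_ordGE_of_ne_zero v hf0] at this
    simpa using this
  have := degree_mono hle
  rw [map_neg, degree_divOf] at this
  omega

/-- `l` is invariant under linear equivalence. -/
theorem ell_sub_divOf {f : F} (hf : f ≠ 0) (D : Divisor K F) :
    ell (D - divOf K f) = ell D := by
  have hiff : ∀ g,
      g ∈ riemannRochSpace (D - divOf K f) ↔ f⁻¹ * g ∈ riemannRochSpace D := fun g => by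
    simp only [mem_riemannRochSpace]
    refine forall_congr' fun v => ?_
    rw [← mul_mem_ordGE_iff v (inv_ne_zero hf) (n := -(D - divOf K f) v), v.ord_inv,
      Finsupp.sub_apply, divOf_apply]
    ring_nf
  refine LinearEquiv.finrank_eq
    { toFun := fun g => ⟨f⁻¹ * g, (hiff _).mp g.2⟩
      invFun := fun g => ⟨f * g, (hiff _).mpr (by simp [hf])⟩
      map_add' := fun a b => by ext; simp [mul_add]
      map_smul' := fun c a => by ext; simp
      left_inv := fun g => by ext; simp [hf]
      right_inv := fun g => by ext; simp [hf] }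

/-- **Riemann's inequality.** -/
theorem exists_riemann_inequality (K F : Type*) [Field K] [Field F] [Algebra K F]
    [IsFunctionField K F] :
    ∃ γ : ℤ, ∀ D : Divisor K F, Divisor.degree D + 1 - γ ≤ (ell D : ℤ) := by
  classical
  obtain ⟨x, hx, -⟩ := IsFunctionField.exists_transcendental_finite (K := K) (F := F)
  set B := poleDiv K x with hB
  set n : ℤ := (Module.finrank K⟮x⟯ F : ℤ) with hn
  have hdB : Divisor.degree B = n := degree_poleDiv hx
  obtain ⟨C, hC⟩ := exists_ell_poleDiv_lower_bound hx
  set γ : ℤ := (C : ℤ) * n - n + 1 with hγ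
  have hmul : ∀ l : ℕ, (l : ℤ) * n + 1 - γ ≤ ell (l • B) := fun l => by
    have h1 : ((l : ℤ) + 1) * n ≤ ell ((l + C) • B) := by
      rw [hn]; exact_mod_cast hC l
    have h2 := ell_sub_degree_antitone (nsmul_le_nsmul_left (poleDiv_nonneg (K := K) x)
      (Nat.le_add_right l C))
    rw [map_nsmul, map_nsmul, nsmul_eq_mul, nsmul_eq_mul, ← hB, hdB] at h2
    push_cast at h2
    linarith
  refine ⟨γ, fun D => ?_⟩
  let D₁ : Divisor K F := D.mapRange (fun a => max a 0) (by simp)
  have hn1 : 1 ≤ n := by
    have := finite_adjoin_simple hx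
    rw [hn]; exact_mod_cast Module.finrank_pos (R := K⟮x⟯) (M := F)
  set l : ℕ := (Divisor.degree D₁ + γ).toNat with hl
  have hl1 : Divisor.degree D₁ + γ ≤ (l : ℤ) * n := by
    have : (Divisor.degree D₁ + γ) ≤ (l : ℤ) := Int.self_le_toNat _
    nlinarith [Int.natCast_nonneg l]
  have hpos : 0 < ell (l • B - D₁) := by
    have h2 := ell_sub_degree_antitone (D := l • B - D₁) (E := l • B) (by
      intro v; simp [D₁])
    rw [map_sub] at h2
    have h3 := hmul l
    rw [map_nsmul, nsmul_eq_mul, hdB] at h2
    omega
  obtain ⟨f, hf, hf0⟩ : ∃ f ∈ riemannRochSpace (l • B - D₁), f ≠ 0 := by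
    refine Submodule.exists_mem_ne_zero_of_ne_bot fun h => ?_
    rw [ell, h, finrank_bot] at hpos
    exact lt_irrefl 0 hpos
  have hle : D ≤ l • B + divOf K f := fun v => by
    have := mem_riemannRochSpace.mp hf v
    rw [mem_ordGE_of_ne_zero v hf0] at this
    simp only [D₁, Finsupp.sub_apply, Finsupp.mapRange_apply] at this
    simp only [Finsupp.add_apply, divOf_apply]
    omega
  have h4 := ell_sub_degree_antitone hle
  have h5 : ell (l • B + divOf K f) = ell (l • B) := by
    have := ell_sub_divOf hf0 (l • B + divOf K f)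
    rwa [add_sub_cancel_right, eq_comm] at this
  rw [h5, map_add, degree_divOf, add_zero, map_nsmul, nsmul_eq_mul, hdB] at h4
  have := hmul l
  omega

/-- An element whose only pole is `v`. -/
theorem exists_ord_neg_unique (v : Place K F) :
    ∃ f : F, v.ord f < 0 ∧ ∀ w : Place K F, w ≠ v → 0 ≤ w.ord f := by
  obtain ⟨γ, hγ⟩ := exists_riemann_inequality K F
  set m : ℕ := (γ + ell (0 : Divisor K F)).toNat with hm
  have h1 := hγ (Finsupp.single v (m : ℤ))
  rw [Divisor.degree_single] at h1
  have h2 : (m : ℤ) ≤ (m : ℤ) * v.deg :=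
    le_mul_of_one_le_right (by positivity) (by exact_mod_cast deg_pos v)
  have hlt : ell (0 : Divisor K F) < ell (Finsupp.single v (m : ℤ)) := by omega
  obtain ⟨f, hf, hfn⟩ := SetLike.not_le_iff_exists.mp fun h : riemannRochSpace
      (Finsupp.single v (m : ℤ)) ≤ riemannRochSpace (0 : Divisor K F) =>
    absurd (Submodule.finrank_mono h) (not_le.mpr hlt)
  have hw : ∀ w : Place K F, w ≠ v → f ∈ ordGE w 0 := fun w hw => by
    simpa [Finsupp.single_eq_of_ne hw] using mem_riemannRochSpace.mp hf w
  have hf0 : f ≠ 0 := fun h => hfn (h ▸ zero_mem _)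
  refine ⟨f, ?_, fun w h => (mem_ordGE_of_ne_zero w hf0).mp (hw w h)⟩
  by_contra hneg
  apply hfn
  rw [mem_riemannRochSpace]
  intro w
  rcases eq_or_ne w v with rfl | hwv
  · simpa using mem_ordGE_of_le_ord w (not_lt.mp hneg)
  · simpa using hw w hwv

end Fermat.Agent.FF
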