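import Fermat.Agent.FF.Basic

/-!
# The weak approximation theorem for finitely many places
-/

set_option autoImplicit false

noncomputable section

open AlgebraicCurve

namespace Fermat.Agent.FF

variable {K F : Type*} [Field K] [Field F] [Algebra K F]

/-- An element with a zero at `v` and a pole at every place of a finite set not containing `v`. -/
theorem exists_zero_at_pole_at (v : Place K F) (T : Finset (Place K F)) (hv : v ∉ T) :
    ∃ x : F, x ≠ 0 ∧ 0 < v.ord x ∧ ∀ w ∈ T, v ≠ w → w.ord x < 0 := by
  classical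
  induction T using Finset.induction with
  | empty =>
    obtain ⟨t, ht, h1⟩ := exists_uniformizer v
    exact ⟨t, ht, by omega, by simp⟩
  | insert a T ha ih =>
    rw [Finset.mem_insert, not_or] at hv
    obtain ⟨y, hy0, hyv, hyT⟩ := ih hv.2
    obtain ⟨p, hp0, hpv, hpa⟩ := exists_ord_nonneg_neg hv.1
    obtain ⟨q, hq0, hqa, hqv⟩ := exists_ord_nonneg_neg (Ne.symm hv.1)
    set z := p / q with hz
    have hz0 : z ≠ 0 := div_ne_zero hp0 hq0
    have hzv : 0 < v.ord z := by rw [hz, ord_div v hp0 hq0]; omega
    have hza : a.ord z < 0 := by rw [hz, ord_div a hp0 hq0]; omega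
    by_cases hya : a.ord y < 0
    · refine ⟨y, hy0, hyv, fun w hw hne => ?_⟩
      rcases Finset.mem_insert.mp hw with rfl | hw
      · exact hya
      · exact hyT w hw hne
    set m : ℕ := 1 + ∑ w ∈ T, (w.ord y).natAbs with hm
    have hm1 : 1 ≤ m := by omega
    have hmw : ∀ w ∈ T, (w.ord y).natAbs < m := fun w hw => by
      have := Finset.single_le_sum (f := fun w : Place K F => (w.ord y).natAbs)
        (fun i _ => Nat.zero_le _) hw
      omega
    have hza' : a.ord (z ^ m) < 0 := by
      rw [ord_pow]; exact mul_neg_of_pos_of_neg (by exact_mod_cast hm1) hza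
    have hne : y + z ^ m ≠ 0 := by
      rw [add_comm]
      exact add_ne_zero_of_ord_lt a (Or.inr (by omega)) (pow_ne_zero _ hz0)
    refine ⟨y + z ^ m, hne, ?_, fun w hw hvw => ?_⟩
    · have h1 := min_ord_le_ord_add v hne
      have h2 : 0 < v.ord (z ^ m) := by
        rw [ord_pow]; exact mul_pos (by exact_mod_cast hm1) hzv
      omega
    · rcases Finset.mem_insert.mp hw with rfl | hw
      · rw [ord_add_eq_right w (pow_ne_zero _ hz0) (Or.inr (by omega))]
        exact hza'
      · have hyw := hyT w hw hvw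
        have hmy := hmw w hw
        rcases lt_trichotomy (w.ord z) 0 with hlt | heq | hgt
        · have hzw : w.ord (z ^ m) ≤ -(m : ℤ) := by
            rw [ord_pow]
            have := mul_le_mul_of_nonneg_left (show w.ord z ≤ -1 by omega)
              (Int.natCast_nonneg m)
            linarith
          rw [ord_add_eq_right w (pow_ne_zero _ hz0) (Or.inr (by omega))]
          omega
        · rw [ord_add_eq_left w hy0 (Or.inr (by rw [ord_pow, heq, mul_zero]; exact hyw))]
          exact hyw
        · have hzw : 0 < w.ord (z ^ m) := by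
            rw [ord_pow]; exact mul_pos (by exact_mod_cast hm1) hgt
          rw [ord_add_eq_left w hy0 (Or.inr (by omega))]
          exact hyw

/-- An element close to `1` at `v` and close to `0` at every other place of a finite set. -/
theorem exists_almost_one (v : Place K F) (S : Finset (Place K F)) (N : ℕ) :
    ∃ u : F, u - 1 ∈ ordGE v N ∧ ∀ w ∈ S, w ≠ v → u ∈ ordGE w N := by
  classical
  obtain ⟨x, hx0, hxv, hxS⟩ := exists_zero_at_pole_at v (S.erase v) (Finset.notMem_erase v S)
  have hxm : x ^ (N + 1) ≠ 0 := pow_ne_zero _ hx0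
  have hvm : (N : ℤ) + 1 ≤ v.ord (x ^ (N + 1)) := by
    rw [ord_pow]
    have := mul_le_mul_of_nonneg_left (show (1 : ℤ) ≤ v.ord x by omega)
      (Int.natCast_nonneg (N + 1))
    push_cast at this ⊢
    linarith
  have hne : 1 + x ^ (N + 1) ≠ 0 :=
    add_ne_zero_of_ord_lt v (Or.inr (by rw [v.ord_one]; omega)) one_ne_zero
  have hv1 : v.ord (1 + x ^ (N + 1)) = 0 := by
    rw [ord_add_eq_left v one_ne_zero (Or.inr (by rw [v.ord_one]; omega)), v.ord_one]
  refine ⟨(1 + x ^ (N + 1))⁻¹, ?_, fun w hw hwv => ?_⟩
  · have heq : (1 + x ^ (N + 1))⁻¹ - 1 = -(x ^ (N + 1) / (1 + x ^ (N + 1))) := by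
      field_simp; ring
    rw [heq]
    refine neg_mem (mem_ordGE_of_le_ord v ?_)
    rw [ord_div v hxm hne, hv1]; omega
  · have hwx := hxS w (Finset.mem_erase.mpr ⟨hwv, hw⟩) (Ne.symm hwv)
    have hwm : w.ord (x ^ (N + 1)) ≤ -((N : ℤ) + 1) := by
      rw [ord_pow]
      have := mul_le_mul_of_nonneg_left (show w.ord x ≤ -1 by omega)
        (Int.natCast_nonneg (N + 1))
      push_cast at this ⊢
      linarith
    refine mem_ordGE_of_le_ord w ?_
    rw [w.ord_inv, ord_add_eq_right w hxm (Or.inr (by rw [w.ord_one]; omega))]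
    omega

/-- **Weak approximation**: prescribed approximations at finitely many places. -/
theorem exists_approx (S : Finset (Place K F)) (g : Place K F → F) (n : Place K F → ℤ) :
    ∃ z : F, ∀ v ∈ S, z - g v ∈ ordGE v (n v) := by
  classical
  set N : ℕ := ∑ v ∈ S, ((n v).natAbs + ∑ w ∈ S, (v.ord (g w)).natAbs) with hN
  choose u hu1 hu0 using fun v : Place K F => exists_almost_one v S N
  refine ⟨∑ v ∈ S, g v * u v, fun v hv => ?_⟩
  have hbound : ∀ w ∈ S, (n v).natAbs + (v.ord (g w)).natAbs ≤ N := fun w hw => by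
    have h1 := Finset.single_le_sum (f := fun w : Place K F => (v.ord (g w)).natAbs)
      (fun i _ => Nat.zero_le _) hw
    have h2 := Finset.single_le_sum
      (f := fun v : Place K F => (n v).natAbs + ∑ w ∈ S, (v.ord (g w)).natAbs)
      (fun i _ => Nat.zero_le _) hv
    omega
  rw [← Finset.add_sum_erase _ _ hv, add_sub_right_comm, ← mul_sub_one]
  refine add_mem (ordGE_antitone v ?_ (mul_mem_ordGE v
    (mem_ordGE_of_le_ord v le_rfl) (hu1 v))) (Submodule.sum_mem _ fun w hw => ?_)
  · have := hbound v hv; omega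
  · have hw' := Finset.mem_of_mem_erase hw
    refine ordGE_antitone v ?_ (mul_mem_ordGE v (mem_ordGE_of_le_ord v le_rfl)
      (hu0 w v hv (Finset.ne_of_mem_erase hw).symm))
    have := hbound w hw'; omega

end Fermat.Agent.FF
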