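import Mathlib
import Fermat.Prelude.Def_AlgebraicCurve_Repartitions

/-!
# Basic facts on places of a function field

`ordGE v n` is the `K`-subspace of elements `f` with `f = 0` or `n ≤ v.ord f`.
-/

set_option autoImplicit false

noncomputable section

open WithZero AlgebraicCurve IsLocalRing

namespace Fermat.Agent.FF

variable {K F : Type*} [Field K] [Field F] [Algebra K F]

/-- Elements of order at least `n` at `v`. -/
def ordGE (v : Place K F) (n : ℤ) : Submodule K F where
  carrier := {f | v.adicValuation f ≤ exp (-n)}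
  zero_mem' := by simp
  add_mem' := by
    intro f g hf hg
    exact (Valuation.map_add v.adicValuation f g).trans (max_le hf hg : _ ≤ exp (-n))
  smul_mem' := by
    intro c f hf
    show v.adicValuation (c • f) ≤ exp (-n)
    rw [Algebra.smul_def, map_mul]
    exact (mul_le_of_le_one_left' (v.adicValuation_algebraMap_le_one c)).trans hf

variable (v : Place K F)

theorem mem_ordGE {n : ℤ} {f : F} : f ∈ ordGE v n ↔ f = 0 ∨ n ≤ v.ord f := by
  show v.adicValuation f ≤ exp (-n) ↔ _
  rw [v.adicValuation_le_exp_iff, neg_neg]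

theorem mem_ordGE_of_ne_zero {n : ℤ} {f : F} (hf : f ≠ 0) :
    f ∈ ordGE v n ↔ n ≤ v.ord f := by
  simp [mem_ordGE, hf]

theorem mem_ordGE_of_le_ord {n : ℤ} {f : F} (h : n ≤ v.ord f) : f ∈ ordGE v n :=
  (mem_ordGE v).mpr (Or.inr h)

theorem ordGE_antitone {m n : ℤ} (h : m ≤ n) : ordGE v n ≤ ordGE v m := fun f hf => by
  rw [mem_ordGE] at hf ⊢
  rcases hf with hf | hf
  · exact Or.inl hf
  · exact Or.inr (h.trans hf)

/-- The valuation ring is `ordGE v 0`. -/
theorem mem_toValuationSubring_iff {f : F} :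
    f ∈ v.toValuationSubring ↔ f ∈ ordGE v 0 := by
  constructor
  · intro hf
    show v.adicValuation f ≤ exp (-0)
    simpa using v.adicValuation_le_one_of_mem hf
  · intro hf
    rcases eq_or_ne f 0 with rfl | hf0
    · exact zero_mem _
    · have hord := (mem_ordGE_of_ne_zero v hf0).mp hf
      obtain ⟨π, hπ⟩ := IsDiscreteValuationRing.exists_irreducible v.toValuationSubring
      obtain ⟨u, hu⟩ := v.exists_unit_mul_zpow hf0 hπ
      obtain ⟨m, hm⟩ := Int.eq_ofNat_of_zero_le hord
      rw [hu, hm, zpow_natCast]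
      exact mul_mem (u : v.toValuationSubring).2 (pow_mem π.2 _)

theorem mem_toValuationSubring_iff_ord {f : F} (hf : f ≠ 0) :
    f ∈ v.toValuationSubring ↔ 0 ≤ v.ord f := by
  rw [mem_toValuationSubring_iff, mem_ordGE_of_ne_zero v hf]

theorem ord_nonneg_of_mem {f : F} (hf : f ∈ v.toValuationSubring) : 0 ≤ v.ord f := by
  rcases eq_or_ne f 0 with rfl | hf0
  · simp
  · exact (mem_toValuationSubring_iff_ord v hf0).mp hf

theorem ord_neg_one : v.ord (-1 : F) = 0 := by
  have h : v.ord ((-1 : F) * (-1)) = v.ord (-1 : F) + v.ord (-1 : F) :=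
    v.ord_mul (neg_ne_zero.mpr one_ne_zero) (neg_ne_zero.mpr one_ne_zero)
  rw [neg_mul_neg, one_mul, v.ord_one] at h
  omega

theorem ord_neg (f : F) : v.ord (-f) = v.ord f := by
  rcases eq_or_ne f 0 with rfl | hf
  · simp
  · rw [neg_eq_neg_one_mul, v.ord_mul (neg_ne_zero.mpr one_ne_zero) hf, ord_neg_one, zero_add]

theorem ord_pow (f : F) (n : ℕ) : v.ord (f ^ n) = n * v.ord f := by
  rw [← zpow_natCast, v.ord_zpow]

theorem ord_algebraMap (a : K) : v.ord (algebraMap K F a) = 0 := by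
  rcases eq_or_ne a 0 with rfl | ha
  · simp
  · have h1 := ord_nonneg_of_mem v (v.algebraMap_mem' a)
    have h2 := ord_nonneg_of_mem v (v.algebraMap_mem' a⁻¹)
    rw [map_inv₀, v.ord_inv] at h2
    omega

theorem ord_div {f g : F} (hf : f ≠ 0) (hg : g ≠ 0) :
    v.ord (f / g) = v.ord f - v.ord g := by
  rw [div_eq_mul_inv, v.ord_mul hf (inv_ne_zero hg), v.ord_inv]; ring

theorem ord_prod {ι : Type*} (s : Finset ι) (f : ι → F) (hf : ∀ i ∈ s, f i ≠ 0) :
    v.ord (∏ i ∈ s, f i) = ∑ i ∈ s, v.ord (f i) := by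
  classical
  induction s using Finset.induction with
  | empty => simp
  | insert a t ha ih =>
    simp only [Finset.mem_insert, forall_eq_or_imp] at hf
    rw [Finset.prod_insert ha, Finset.sum_insert ha,
      v.ord_mul hf.1 (Finset.prod_ne_zero_iff.mpr hf.2), ih hf.2]

theorem mul_mem_ordGE {m n : ℤ} {f g : F} (hf : f ∈ ordGE v m) (hg : g ∈ ordGE v n) :
    f * g ∈ ordGE v (m + n) := by
  rcases eq_or_ne f 0 with rfl | hf0
  · simp
  rcases eq_or_ne g 0 with rfl | hg0
  · simp
  rw [mem_ordGE_of_ne_zero v hf0] at hf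
  rw [mem_ordGE_of_ne_zero v hg0] at hg
  exact mem_ordGE_of_le_ord v (by rw [v.ord_mul hf0 hg0]; omega)

theorem mul_mem_ordGE_iff {n : ℤ} {f g : F} (hf : f ≠ 0) :
    f * g ∈ ordGE v (v.ord f + n) ↔ g ∈ ordGE v n := by
  rcases eq_or_ne g 0 with rfl | hg
  · simp
  · rw [mem_ordGE_of_ne_zero v (mul_ne_zero hf hg), mem_ordGE_of_ne_zero v hg,
      v.ord_mul hf hg]
    omega

theorem pow_mem_ordGE {m : ℤ} {f : F} (hf : f ∈ ordGE v m) (k : ℕ) :
    f ^ k ∈ ordGE v (k * m) := by
  induction k with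
  | zero => exact mem_ordGE_of_le_ord v (by simp)
  | succ k ih =>
    rw [pow_succ]
    exact ordGE_antitone v (le_of_eq (by push_cast; ring)) (mul_mem_ordGE v ih hf)

theorem one_mem_ordGE_zero : (1 : F) ∈ ordGE v 0 := mem_ordGE_of_le_ord v (by simp)

theorem algebraMap_mem_ordGE_zero (a : K) : algebraMap K F a ∈ ordGE v 0 :=
  mem_ordGE_of_le_ord v (by rw [ord_algebraMap])

/-- The ultrametric inequality. -/
theorem min_ord_le_ord_add {f g : F} (hfg : f + g ≠ 0) :
    min (v.ord f) (v.ord g) ≤ v.ord (f + g) :=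
  (mem_ordGE_of_ne_zero v hfg).mp
    (add_mem (mem_ordGE_of_le_ord v (min_le_left _ _)) (mem_ordGE_of_le_ord v (min_le_right _ _)))

theorem add_ne_zero_of_ord_lt {f g : F} (h : g = 0 ∨ v.ord f < v.ord g) (hf : f ≠ 0) :
    f + g ≠ 0 := by
  intro h0
  rw [eq_neg_of_add_eq_zero_left h0, ord_neg] at h
  rcases h with h | h
  · exact hf (by simpa [h] using h0)
  · omega

theorem ord_add_eq_left {f g : F} (hf : f ≠ 0) (h : g = 0 ∨ v.ord f < v.ord g) :
    v.ord (f + g) = v.ord f := by
  rcases eq_or_ne g 0 with rfl | hg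
  · simp
  replace h : v.ord f < v.ord g := h.resolve_left hg
  have hne := add_ne_zero_of_ord_lt v (Or.inr h) hf
  have h1 : min (v.ord f) (v.ord g) ≤ v.ord (f + g) := min_ord_le_ord_add v hne
  have h2 : min (v.ord (f + g)) (v.ord (-g)) ≤ v.ord ((f + g) + -g) :=
    min_ord_le_ord_add v (by simpa using hf)
  rw [add_neg_cancel_right, ord_neg] at h2
  omega

theorem ord_add_eq_right {f g : F} (hg : g ≠ 0) (h : f = 0 ∨ v.ord g < v.ord f) :
    v.ord (f + g) = v.ord g := by
  rw [add_comm]; exact ord_add_eq_left v hg h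

theorem ord_eq_of_sub_mem {f g : F} (hg : g ≠ 0) (h : f - g ∈ ordGE v (v.ord g + 1)) :
    f ≠ 0 ∧ v.ord f = v.ord g := by
  have hlt : f - g = 0 ∨ v.ord g < v.ord (f - g) := by
    rcases (mem_ordGE v).mp h with h | h
    · exact Or.inl h
    · exact Or.inr (by omega)
  have h1 := add_ne_zero_of_ord_lt v hlt hg
  have h2 := ord_add_eq_left v hg hlt
  rw [add_sub_cancel] at h1 h2
  exact ⟨h1, h2⟩

/-- Every place has a uniformizer. -/
theorem exists_uniformizer : ∃ t : F, t ≠ 0 ∧ v.ord t = 1 := by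
  obtain ⟨π, hπ⟩ := IsDiscreteValuationRing.exists_irreducible v.toValuationSubring
  exact ⟨π, by simpa using hπ.ne_zero, v.ord_coe_irreducible hπ⟩

theorem exists_ne_zero_ord_eq (n : ℤ) : ∃ t : F, t ≠ 0 ∧ v.ord t = n := by
  obtain ⟨t, ht, h1⟩ := exists_uniformizer v
  exact ⟨t ^ n, zpow_ne_zero _ ht, by rw [v.ord_zpow, h1, mul_one]⟩

/-- The maximal ideal is `ordGE v 1`. -/
theorem residue_eq_zero_iff (a : v.toValuationSubring) :
    residue v.toValuationSubring a = 0 ↔ (a : F) ∈ ordGE v 1 := by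
  rw [IsLocalRing.residue_eq_zero_iff, mem_maximalIdeal, mem_nonunits_iff,
    ← v.adicValuation_coe_eq_one_iff]
  rcases eq_or_ne (a : F) 0 with h | h
  · simp [h]
  · rw [mem_ordGE_of_ne_zero v h, v.adicValuation_eq_exp_neg_ord h, ← WithZero.exp_zero,
      WithZero.exp_inj]
    have := ord_nonneg_of_mem v a.2
    omega

/-- A place contained in another place is equal to it. -/
theorem place_eq_of_le {v w : Place K F} (h : v.toValuationSubring ≤ w.toValuationSubring) :
    v = w := by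
  ext1
  refine le_antisymm h fun f hf => ?_
  by_contra hfv
  apply w.ne_top'
  refine eq_top_iff.mpr fun g _ => ?_
  rcases eq_or_ne g 0 with rfl | hg
  · exact zero_mem _
  have hf0 : f ≠ 0 := fun h0 => hfv (h0 ▸ zero_mem _)
  have hneg : v.ord f < 0 := by
    rw [mem_toValuationSubring_iff_ord v hf0] at hfv; omega
  set k : ℕ := (v.ord g).natAbs with hk
  have hkey : g * (f ^ k)⁻¹ ∈ v.toValuationSubring := by
    rw [mem_toValuationSubring_iff_ord v (mul_ne_zero hg (inv_ne_zero (pow_ne_zero _ hf0))),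
      v.ord_mul hg (inv_ne_zero (pow_ne_zero _ hf0)), v.ord_inv, ord_pow]
    have hk1 : -(v.ord g) ≤ (k : ℤ) := by omega
    have hk2 : (k : ℤ) * v.ord f ≤ (k : ℤ) * (-1) :=
      mul_le_mul_of_nonneg_left (by omega) (by positivity)
    linarith
  have : g = g * (f ^ k)⁻¹ * f ^ k := by
    field_simp
  rw [this]
  exact mul_mem (h hkey) (pow_mem hf k)

/-- Distinct places are separated by some element. -/
theorem exists_ord_nonneg_neg {v w : Place K F} (h : v ≠ w) :
    ∃ f : F, f ≠ 0 ∧ 0 ≤ v.ord f ∧ w.ord f < 0 := by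
  by_contra hne
  push Not at hne
  apply h
  refine place_eq_of_le fun f hf => ?_
  rcases eq_or_ne f 0 with rfl | hf0
  · exact zero_mem _
  exact (mem_toValuationSubring_iff_ord w hf0).mpr (hne f hf0 (ord_nonneg_of_mem v hf))

end Fermat.Agent.FF
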