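import Fermat.Agent.FF.SemiLocal

/-!
# Rational subfields, and residues as constants at a place
-/

set_option autoImplicit false

noncomputable section

open AlgebraicCurve Polynomial IntermediateField

namespace Fermat.Agent.FF

variable {K F : Type*} [Field K] [Field F] [Algebra K F] [IsFunctionField K F]

omit [IsFunctionField K F] in
/-- `K(x)` is a function field for transcendental `x`. -/
theorem isFunctionField_adjoin {x : F} (hx : Transcendental K x) :
    IsFunctionField K K⟮x⟯ := by
  set g : K⟮x⟯ := ⟨x, mem_adjoin_simple_self K x⟩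
  have hg : Transcendental K g := fun h =>
    hx ((isAlgebraic_algebraMap_iff (A := F) (algebraMap K⟮x⟯ F).injective).mpr h)
  have htop : K⟮g⟯ = ⊤ := by
    refine IntermediateField.map_injective (K⟮x⟯.val) ?_
    rw [adjoin_map, Set.image_singleton, ← AlgHom.fieldRange_eq_map,
      IntermediateField.fieldRange_val]
    rfl
  have : Module.Finite K⟮g⟯ K⟮x⟯ := by
    refine ⟨⟨{1}, eq_top_iff.mpr fun y _ => ?_⟩⟩
    rw [Finset.coe_singleton, Submodule.mem_span_singleton]
    exact ⟨⟨y, htop ▸ IntermediateField.mem_top⟩, by simp [IntermediateField.smul_def]⟩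
  exact IsFunctionField.of_finite g hg

/-- With residue field `K`, elements of a valuation ring are constants plus multiples of a
uniformizer. -/
theorem exists_sub_algebraMap_mem [IsAlgClosed K] (v : Place K F) {z : F} (hz : z ∈ ordGE v 0) :
    ∃ a : K, z - algebraMap K F a ∈ ordGE v 1 := by
  obtain ⟨a, ha⟩ :=
    (IsAlgClosed.algebraMap_bijective_of_isIntegral (k := K) (K := v.ResidueField)).2
      (residueMap v ⟨z, hz⟩)
  refine ⟨a, (residueMap_eq_zero_iff v
    (⟨z, hz⟩ - ⟨algebraMap K F a, algebraMap_mem_ordGE_zero v a⟩)).mp ?_⟩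
  rw [map_sub, ← ha, sub_eq_zero]
  rfl

end Fermat.Agent.FF
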