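import Fermat.Agent.FF.Degree
import Fermat.Prelude.Def_AlgebraicCurve_DivisorPushPull

/-!
# Finite extensions of function fields: the fundamental identity `∑ e f = [F' : F]`
-/

set_option autoImplicit false

noncomputable section

open AlgebraicCurve IntermediateField

namespace Fermat.Agent.FF

variable {K F F' : Type*} [Field K] [Field F] [Field F'] [Algebra K F] [Algebra K F']
  [Algebra F F'] [IsScalarTower K F F'] [Module.Finite F F']

omit [Module.Finite F F'] in
theorem transcendental_algebraMap {x : F} (hx : Transcendental K x) :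
    Transcendental K (algebraMap F F' x) :=
  fun h => hx ((isAlgebraic_algebraMap_iff (algebraMap F F').injective).mp h)

theorem finite_adjoin_algebraMap (x : F) [Module.Finite K⟮x⟯ F] :
    Module.Finite K⟮algebraMap F F' x⟯ F' ∧
      Module.finrank K⟮algebraMap F F' x⟯ F' =
        Module.finrank K⟮x⟯ F * Module.finrank F F' := by
  let f : F →ₐ[K] F' := IsScalarTower.toAlgHom K F F'
  have hmap : (K⟮x⟯).map f = K⟮algebraMap F F' x⟯ := by
    rw [adjoin_map, Set.image_singleton]
    rfl
  let e : K⟮x⟯ ≃ₐ[K] K⟮algebraMap F F' x⟯ :=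
    (IntermediateField.equivMap K⟮x⟯ f).trans (IntermediateField.equivOfEq hmap)
  have he : (algebraMap K⟮algebraMap F F' x⟯ F').comp (e.toRingEquiv : _ →+* _) =
      ((RingEquiv.refl F' : F' ≃+* F') : F' →+* F').comp (algebraMap K⟮x⟯ F') := by
    ext a
    rfl
  have : Module.Finite K⟮x⟯ F' := Module.Finite.trans F F'
  refine ⟨Module.Finite.of_equiv_equiv e.toRingEquiv (RingEquiv.refl F') he, ?_⟩
  rw [← Algebra.finrank_eq_of_equiv_equiv e.toRingEquiv (RingEquiv.refl F') he,
    Module.finrank_mul_finrank]

theorem isFunctionField_of_finite (K F F' : Type*) [Field K] [Field F] [Field F'] [Algebra K F]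
    [Algebra K F'] [Algebra F F'] [IsScalarTower K F F'] [Module.Finite F F']
    [IsFunctionField K F] : IsFunctionField K F' := by
  obtain ⟨x, hx, hfin⟩ := IsFunctionField.exists_transcendental_finite (K := K) (F := F)
  exact ⟨⟨_, transcendental_algebraMap hx, (finite_adjoin_algebraMap (F' := F') x).1⟩⟩

omit [Module.Finite F F'] in
theorem algebraMap_mem_ordGE_iff [Algebra.IsIntegral F F'] (w : Place K F') (f : F) (n : ℤ) :
    algebraMap F F' f ∈ ordGE w (w.ramificationIndex F * n) ↔ f ∈ ordGE (w.restrict F) n := by
  rcases eq_or_ne f 0 with rfl | hf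
  · simp
  rw [mem_ordGE_of_ne_zero w (by simpa using hf), mem_ordGE_of_ne_zero _ hf, w.ord_restrict]
  have : 0 < (w.ramificationIndex F : ℤ) := by exact_mod_cast w.ramificationIndex_pos (F := F)
  exact mul_le_mul_iff_right₀ this

omit [Module.Finite F F'] in
theorem algebraMap_mem_ordGE [Algebra.IsIntegral F F'] (w : Place K F') {f : F} {n : ℤ}
    (h : f ∈ ordGE (w.restrict F) n) :
    algebraMap F F' f ∈ ordGE w (w.ramificationIndex F * n) :=
  (algebraMap_mem_ordGE_iff w f n).mpr h

variable [IsFunctionField K F]

variable (F F') in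
/-- `[F' : K(x)] = [F' : F] [F : K(x)]`, as a statement on degrees of pole divisors. -/
theorem degree_poleDiv_algebraMap [IsFunctionField K F'] {x : F} (hx : Transcendental K x) :
    Divisor.degree (poleDiv K (algebraMap F F' x)) =
      (Module.finrank F F' : ℤ) * Divisor.degree (poleDiv K x) := by
  have := finite_adjoin_simple hx
  rw [degree_poleDiv (transcendental_algebraMap (F' := F') hx), degree_poleDiv hx,
    (finite_adjoin_algebraMap (F' := F') x).2]
  push_cast
  ring

/-- `∑ e · deg w = [F' : F] · deg v`. -/
theorem sum_ramificationIndex_mul_deg [HasPrincipalDivisors K F'] (v : Place K F) :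
    ∑ w ∈ v.fiber F', (w.ramificationIndex F : ℤ) * (w.deg : ℤ)
      = (Module.finrank F F' : ℤ) * (v.deg : ℤ) := by
  classical
  have := isFunctionField_of_finite K F F'
  obtain ⟨x, hxv, hxw⟩ := exists_ord_neg_unique v
  have hx := transcendental_of_isPole v hxv
  have hpole : poleDiv K x = Finsupp.single v (-v.ord x) := Finsupp.ext fun u => by
    rcases eq_or_ne u v with rfl | hu
    · rw [poleDiv_apply, Finsupp.single_eq_same]; omega
    · have := hxw u hu
      rw [poleDiv_apply, Finsupp.single_eq_of_ne hu]; omega
  have hpole' : poleDiv K (algebraMap F F' x) =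
      ∑ w ∈ v.fiber F', Finsupp.single w ((-v.ord x) * w.ramificationIndex F) := by
    rw [← Divisor.pullback_single, ← hpole]
    refine Finsupp.ext fun w => ?_
    rw [Divisor.pullback_apply, poleDiv_apply, poleDiv_apply, w.ord_restrict,
      mul_max_of_nonneg _ _ (Int.natCast_nonneg _), mul_zero, mul_neg]
  have h := degree_poleDiv_algebraMap F F' hx
  rw [hpole', hpole, map_sum, Divisor.degree_single] at h
  simp only [Divisor.degree_single, mul_assoc, ← Finset.mul_sum] at h
  rw [show (Module.finrank F F' : ℤ) * (-v.ord x * (v.deg : ℤ)) =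
    -v.ord x * ((Module.finrank F F' : ℤ) * (v.deg : ℤ)) by ring] at h
  exact mul_left_cancel₀ (by omega) h

/-- The fundamental identity `∑ e f = [F' : F]`. -/
instance instSumRamificationInertia [HasPrincipalDivisors K F'] :
    SumRamificationInertia K F F' where
  sum_ramificationIndex_mul_inertiaDeg v := by
    refine mul_left_cancel₀ (show (v.deg : ℤ) ≠ 0 by exact_mod_cast (deg_pos v).ne') ?_
    rw [mul_comm (v.deg : ℤ) (Module.finrank F F' : ℤ), ← sum_ramificationIndex_mul_deg v,
      Finset.mul_sum]
    refine Finset.sum_congr rfl fun w hw => ?_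
    rw [← w.deg_restrict_mul_inertiaDeg (F := F), Place.mem_fiber.mp hw]
    push_cast
    ring

/-- Every place has a place above it. -/
theorem fiber_nonempty [HasPrincipalDivisors K F'] (v : Place K F) :
    (v.fiber F').Nonempty := by
  by_contra h
  have hsum := sum_ramificationIndex_mul_deg (F' := F') v
  rw [Finset.not_nonempty_iff_eq_empty.mp h, Finset.sum_empty] at hsum
  have h1 : 0 < (Module.finrank F F' : ℤ) := by exact_mod_cast Module.finrank_pos
  have h2 : 0 < (v.deg : ℤ) := by exact_mod_cast deg_pos v
  have := mul_pos h1 h2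
  omega

/-- Over an algebraically closed constant field, inertia degrees are `1`. -/
theorem inertiaDeg_eq_one [IsAlgClosed K] (w : Place K F') : w.inertiaDeg F = 1 := by
  have := isFunctionField_of_finite K F F'
  have h := w.deg_restrict_mul_inertiaDeg (F := F)
  rwa [deg_eq_one, deg_eq_one, one_mul] at h

/-- Over an algebraically closed constant field, `∑ e = [F' : F]`. -/
theorem sum_ramificationIndex [IsAlgClosed K] [HasPrincipalDivisors K F'] (v : Place K F) :
    ∑ w ∈ v.fiber F', w.ramificationIndex F = Module.finrank F F' := by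
  have := isFunctionField_of_finite K F F'
  have h := sum_ramificationIndex_mul_deg (F' := F') v
  simp only [deg_eq_one, Nat.cast_one, mul_one] at h
  exact_mod_cast h

end Fermat.Agent.FF
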