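import Fermat.Agent.FF.Genus
import Fermat.Prelude.Def_AlgebraicCurve_IsCurveOver
import Fermat.Prelude.Def_AlgebraicCurve_CanonicalDivisor

/-!
# Differentials of function fields

`dx` spans `Ω[F⁄K]` for a separating `x`, and a curve in characteristic zero is a function field.
-/

set_option autoImplicit false

noncomputable section

open AlgebraicCurve Polynomial IntermediateField
open scoped KaehlerDifferential

namespace Fermat.Agent.FF

variable {K F : Type*} [Field K] [Field F] [Algebra K F]

theorem D_aeval_mem_span {x : F} (r : K[X]) :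
    KaehlerDifferential.D K F (aeval x r) ∈ Submodule.span F {KaehlerDifferential.D K F x} := by
  rw [Derivation.map_aeval]
  exact Submodule.smul_mem _ _ (Submodule.mem_span_singleton_self _)

theorem D_mem_span_of_mem_adjoin {x : F} (c : K⟮x⟯) :
    KaehlerDifferential.D K F (c : F) ∈ Submodule.span F {KaehlerDifferential.D K F x} := by
  obtain ⟨r, s, hc⟩ := (IntermediateField.mem_adjoin_simple_iff K (c : F)).mp c.2
  rw [hc, Derivation.leibniz_div]
  exact Submodule.smul_mem _ _
    (sub_mem (Submodule.smul_mem _ _ (D_aeval_mem_span r))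
      (Submodule.smul_mem _ _ (D_aeval_mem_span s)))

/-- If `F` is separable over `K(x)` then `dx` spans `Ω[F⁄K]`. -/
theorem span_D_eq_top {x : F} [Algebra.IsSeparable K⟮x⟯ F] :
    Submodule.span F {KaehlerDifferential.D K F x} = ⊤ := by
  rw [eq_top_iff, ← KaehlerDifferential.span_range_derivation, Submodule.span_le]
  rintro _ ⟨y, rfl⟩
  set M := Submodule.span F {KaehlerDifferential.D K F x}
  have key : ∀ q : Polynomial K⟮x⟯,
      KaehlerDifferential.D K F (aeval y q) -
        aeval y (derivative q) • KaehlerDifferential.D K F y ∈ M := by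
    intro q
    induction q using Polynomial.induction_on' with
    | add a b ha hb =>
      simp only [map_add, add_smul]
      convert add_mem ha hb using 1
      abel
    | monomial n a =>
      rw [derivative_monomial, aeval_monomial, aeval_monomial, Derivation.leibniz,
        Derivation.leibniz_pow, map_mul, map_natCast, ← Nat.cast_smul_eq_nsmul F, smul_smul,
        smul_smul, mul_assoc, add_sub_right_comm, sub_self, zero_add]
      exact Submodule.smul_mem _ _ (D_mem_span_of_mem_adjoin a)
  have h := key (minpoly K⟮x⟯ y)
  rw [minpoly.aeval, map_zero, zero_sub, neg_mem_iff] at h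
  have hne : aeval y (derivative (minpoly K⟮x⟯ y)) ≠ 0 :=
    (Algebra.IsSeparable.isSeparable K⟮x⟯ y).aeval_derivative_ne_zero (minpoly.aeval _ _)
  rw [SetLike.mem_coe]
  exact (Submodule.smul_mem_iff _ hne).mp h

theorem essFiniteType_of_finite_adjoin (x : F) [Module.Finite K⟮x⟯ F] :
    Algebra.EssFiniteType K F := by
  have : Algebra.EssFiniteType K K⟮x⟯ :=
    IntermediateField.essFiniteType_iff.mpr
      (IntermediateField.fg_adjoin_of_finite (Set.finite_singleton x))
  exact Algebra.EssFiniteType.comp K K⟮x⟯ F

theorem nontrivial_kaehler [IsFunctionField K F] : Nontrivial Ω[F⁄K] := by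
  rw [← not_subsingleton_iff_nontrivial]
  intro h
  obtain ⟨x, hx, hfin⟩ := IsFunctionField.exists_transcendental_finite (K := K) (F := F)
  have := essFiniteType_of_finite_adjoin (K := K) x
  have : Algebra.FormallyUnramified K F := ⟨h⟩
  have : Module.Finite K F := Algebra.FormallyUnramified.finite_of_free K F
  exact hx (Algebra.IsAlgebraic.isAlgebraic x)

theorem D_ne_zero [IsFunctionField K F] {x : F} [Algebra.IsSeparable K⟮x⟯ F] :
    KaehlerDifferential.D K F x ≠ 0 := by
  intro h0
  have := nontrivial_kaehler (K := K) (F := F)
  have htop : Submodule.span F {KaehlerDifferential.D K F x} = ⊤ := span_D_eq_top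
  rw [h0, Submodule.span_zero_singleton] at htop
  exact bot_ne_top htop

section CharZero

variable [CharZero K] [IsFunctionField K F]

theorem isSeparable_adjoin {x : F} (hx : Transcendental K x) : Algebra.IsSeparable K⟮x⟯ F := by
  have := finite_adjoin_simple hx
  have : CharZero K⟮x⟯ := charZero_of_injective_algebraMap (algebraMap K K⟮x⟯).injective
  infer_instance

theorem span_D_eq_top_of_transcendental {x : F} (hx : Transcendental K x) :
    Submodule.span F {KaehlerDifferential.D K F x} = ⊤ := by
  have := isSeparable_adjoin hx
  exact span_D_eq_top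

/-- In characteristic zero `dx ≠ 0` for transcendental `x`. -/
theorem D_ne_zero_of_transcendental {x : F} (hx : Transcendental K x) :
    KaehlerDifferential.D K F x ≠ 0 := by
  have := isSeparable_adjoin hx
  exact D_ne_zero

omit [CharZero K] [IsFunctionField K F] in
/-- `dCoord` is the differential of some uniformizer. -/
theorem exists_dCoord_eq (v : Place K F) :
    ∃ t : F, t ≠ 0 ∧ v.ord t = 1 ∧ v.dCoord = KaehlerDifferential.D K F t := by
  refine ⟨((IsDiscreteValuationRing.exists_irreducible v.toValuationSubring).choose : F), ?_, ?_,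
    rfl⟩
  · simpa using
      (IsDiscreteValuationRing.exists_irreducible v.toValuationSubring).choose_spec.ne_zero
  · exact v.ord_coe_irreducible
      (IsDiscreteValuationRing.exists_irreducible v.toValuationSubring).choose_spec

/-- `dCoord` spans the differentials. -/
instance instDCoordGenerates (v : Place K F) : v.DCoordGenerates := by
  obtain ⟨t, ht0, ht, hd⟩ := exists_dCoord_eq v
  refine ⟨?_⟩
  rw [hd]
  exact span_D_eq_top_of_transcendental (transcendental_of_ord_ne_zero v (by omega))

end CharZero

/-- In characteristic zero an essentially finitely generated curve is a function field. -/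
theorem isFunctionField_of_isCurveOver (K F : Type*) [Field K] [Field F] [Algebra K F]
    [CharZero K] [IsCurveOver K F] [Algebra.EssFiniteType K F] : IsFunctionField K F := by
  obtain ⟨x, hx⟩ : ∃ x : F, KaehlerDifferential.D K F x ≠ 0 := by
    by_contra h
    push Not at h
    have htop := KaehlerDifferential.span_range_derivation K F
    have hr : Set.range (KaehlerDifferential.D K F) = {0} :=
      Set.eq_singleton_iff_unique_mem.mpr ⟨⟨0, map_zero _⟩, fun _ ⟨y, hy⟩ => hy ▸ h y⟩
    rw [hr, Submodule.span_zero_singleton] at htop
    exact bot_ne_top htop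
  have hspan : Submodule.span F {KaehlerDifferential.D K F x} = ⊤ := by
    rw [eq_top_iff]
    intro w _
    obtain ⟨c, hc⟩ :=
      exists_smul_eq_of_finrank_eq_one IsCurveOver.finrank_kaehler hx w
    exact Submodule.mem_span_singleton.mpr ⟨c, hc⟩
  have : Algebra.EssFiniteType K⟮x⟯ F := Algebra.EssFiniteType.of_comp K K⟮x⟯ F
  have : Subsingleton Ω[F⁄K⟮x⟯] := by
    refine subsingleton_of_forall_eq 0 fun w => ?_
    obtain ⟨w', rfl⟩ := KaehlerDifferential.map_surjective K K⟮x⟯ F w
    obtain ⟨c, rfl⟩ := Submodule.mem_span_singleton.mp (hspan ▸ Submodule.mem_top (x := w'))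
    rw [map_smul, KaehlerDifferential.map_D,
      show algebraMap F F x = algebraMap K⟮x⟯ F ⟨x, mem_adjoin_simple_self K x⟩ from rfl,
      Derivation.map_algebraMap, smul_zero]
  have : Algebra.FormallyUnramified K⟮x⟯ F := ⟨this⟩
  have : Module.Finite K⟮x⟯ F := Algebra.FormallyUnramified.finite_of_free _ _
  refine IsFunctionField.of_finite x fun halg => ?_
  have : FiniteDimensional K K⟮x⟯ := adjoin.finiteDimensional halg.isIntegral
  have : Module.Finite K F := Module.Finite.trans K⟮x⟯ F
  have : Algebra.IsSeparable K F := inferInstance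
  have : Algebra.FormallyUnramified K F := Algebra.FormallyUnramified.of_isSeparable K F
  exact hx (Subsingleton.elim _ _)

end Fermat.Agent.FF
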