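import Fermat.Agent.FF.Approx

/-!
# Residues and the key independence lemma
-/

set_option autoImplicit false

noncomputable section

open AlgebraicCurve IsLocalRing

namespace Fermat.Agent.FF

variable {K F : Type*} [Field K] [Field F] [Algebra K F]

/-- The residue map on elements of nonnegative order. -/
def residueMap (v : Place K F) : ordGE v 0 →ₗ[K] v.ResidueField where
  toFun f := residue v.toValuationSubring ⟨f, (mem_toValuationSubring_iff v).mpr f.2⟩
  map_add' f g := by
    rw [← map_add]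
    rfl
  map_smul' c f := by
    rw [RingHom.id_apply, Algebra.smul_def]
    have : algebraMap K v.ResidueField c =
        residue v.toValuationSubring (algebraMap K v.toValuationSubring c) := rfl
    rw [this, ← map_mul]
    refine congrArg _ (Subtype.ext ?_)
    show c • (f : F) = algebraMap K F c * (f : F)
    rw [Algebra.smul_def]

theorem residueMap_apply (v : Place K F) (f : ordGE v 0) :
    residueMap v f =
      residue v.toValuationSubring ⟨f, (mem_toValuationSubring_iff v).mpr f.2⟩ := rfl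

theorem residueMap_eq_zero_iff (v : Place K F) (f : ordGE v 0) :
    residueMap v f = 0 ↔ (f : F) ∈ ordGE v 1 := by
  rw [residueMap_apply, residue_eq_zero_iff]

theorem residueMap_surjective (v : Place K F) : Function.Surjective (residueMap v) := fun r => by
  obtain ⟨a, rfl⟩ := IsLocalRing.residue_surjective r
  exact ⟨⟨a, (mem_toValuationSubring_iff v).mp a.2⟩, rfl⟩

/-- A linearly independent family of residues has no nontrivial `K`-relation modulo the
maximal ideal. -/
theorem eq_zero_of_sum_smul_mem_ordGE_one (v : Place K F) {ι : Type*} [Fintype ι]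
    {s : ι → ordGE v 0} (hs : LinearIndependent K (residueMap v ∘ s)) (c : ι → K)
    (h : ∑ i, c i • (s i : F) ∈ ordGE v 1) : ∀ i, c i = 0 := by
  refine Fintype.linearIndependent_iff.mp hs c ?_
  have hsum : residueMap v (∑ i, c i • s i) = 0 := by
    rw [residueMap_eq_zero_iff]
    simpa using h
  simpa [map_sum, map_smul] using hsum

/-- The index type of a system of approximating elements. -/
abbrev Idx {T : Finset (Place K F)} (e : Place K F → ℕ) (J : T → Type*) : Type _ :=
  Σ w : T, Fin (e w) × J w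

/-- For residue representatives `s`, elements `z` close to `t ^ a * s` at one place and small at the
other places of `T`. -/
theorem exists_approx_family (T : Finset (Place K F)) (e : Place K F → ℕ) {J : T → Type*}
    (t : T → F) (s : ∀ w : T, J w → F) :
    ∃ z : Idx e J → F,
      (∀ i : Idx e J, z i - t i.1 ^ (i.2.1 : ℕ) * s i.1 i.2.2 ∈ ordGE (i.1 : Place K F) (e i.1)) ∧
      ∀ (i : Idx e J) (w : T), w ≠ i.1 → z i ∈ ordGE (w : Place K F) (e w) := by
  classical
  have h : ∀ i : Idx e J, ∃ z : F,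
      (z - t i.1 ^ (i.2.1 : ℕ) * s i.1 i.2.2 ∈ ordGE (i.1 : Place K F) (e i.1)) ∧
        ∀ w : T, w ≠ i.1 → z ∈ ordGE (w : Place K F) (e w) := fun i => by
    obtain ⟨z, hz⟩ := exists_approx T
      (fun v => if v = (i.1 : Place K F) then t i.1 ^ (i.2.1 : ℕ) * s i.1 i.2.2 else 0)
      (fun v => (e v : ℤ))
    refine ⟨z, ?_, fun w hw => ?_⟩
    · simpa using hz i.1 i.1.2
    · simpa [Subtype.coe_injective.ne hw] using hz w w.2
  choose z hz1 hz2 using h
  exact ⟨z, hz1, hz2⟩

/-- **Key independence lemma.** `φ` sends coefficients into the valuation rings and "small"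
coefficients `I` into order `≥ e w`; the `s w` have no relation at `w` with coefficients outside
`I`. Then only small coefficients give combinations of the `z` of order `≥ e w` at every place. -/
theorem approx_indep (T : Finset (Place K F)) (e : Place K F → ℕ) {J : T → Type*}
    [∀ w, Fintype (J w)] (t : T → F) (s : ∀ w : T, J w → F)
    (ht : ∀ w : T, t w ≠ 0 ∧ (w : Place K F).ord (t w) = 1)
    (hs : ∀ (w : T) (j : J w), s w j ∈ ordGE (w : Place K F) 0) {z : Idx e J → F}
    (hz : ∀ i : Idx e J,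
      z i - t i.1 ^ (i.2.1 : ℕ) * s i.1 i.2.2 ∈ ordGE (i.1 : Place K F) (e i.1))
    (hz' : ∀ (i : Idx e J) (w : T), w ≠ i.1 → z i ∈ ordGE (w : Place K F) (e w))
    {A : Type*} (φ : A → F) (I : Set A)
    (hφ : ∀ (a : A) (w : T), φ a ∈ ordGE (w : Place K F) 0)
    (hφI : ∀ a ∈ I, ∀ w : T, φ a ∈ ordGE (w : Place K F) (e w))
    (hres : ∀ (w : T) (c : J w → A),
      ∑ j, φ (c j) * s w j ∈ ordGE (w : Place K F) 1 → ∀ j, c j ∈ I)
    (c : Idx e J → A) (hc : ∀ w : T, ∑ i, φ (c i) * z i ∈ ordGE (w : Place K F) (e w)) :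
    ∀ i, c i ∈ I := by
  classical
  suffices h : ∀ (a : ℕ) (w : T) (ha : a < e w) (j : J w), c ⟨w, ⟨a, ha⟩, j⟩ ∈ I by
    rintro ⟨w, ⟨a, ha⟩, j⟩
    exact h a w ha j
  intro a
  induction a using Nat.strong_induction_on with
  | _ a ih =>
  intro w ha
  refine hres w (fun j => c ⟨w, ⟨a, ha⟩, j⟩) ?_
  set k : ℤ := (a : ℤ) + 1 with hk
  have hke : k ≤ e w := by omega
  have htot := ordGE_antitone (w : Place K F) hke (hc w)
  rw [Fintype.sum_sigma, ← Finset.add_sum_erase _ _ (Finset.mem_univ w)] at htot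
  have hother : ∑ w' ∈ Finset.univ.erase w,
      ∑ q : Fin (e w') × J w', φ (c ⟨w', q⟩) * z ⟨w', q⟩ ∈ ordGE (w : Place K F) k :=
    Submodule.sum_mem _ fun w' hw' => Submodule.sum_mem _ fun q _ =>
      ordGE_antitone _ (by omega)
        (mul_mem_ordGE _ (hφ _ w) (hz' ⟨w', q⟩ w (Finset.ne_of_mem_erase hw').symm))
  rw [Submodule.add_mem_iff_left _ hother, Fintype.sum_prod_type,
    ← Finset.add_sum_erase _ _ (Finset.mem_univ (⟨a, ha⟩ : Fin (e w)))] at htot
  have htw : t w ∈ ordGE (w : Place K F) 1 := mem_ordGE_of_le_ord _ (ht w).2.ge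
  have hrest : ∑ b ∈ Finset.univ.erase (⟨a, ha⟩ : Fin (e w)),
      ∑ j, φ (c ⟨w, b, j⟩) * z ⟨w, b, j⟩ ∈ ordGE (w : Place K F) k := by
    refine Submodule.sum_mem _ fun b hb => Submodule.sum_mem _ fun j _ => ?_
    have hzb : z ⟨w, b, j⟩ ∈ ordGE (w : Place K F) (min ((b : ℕ) : ℤ) (e w)) := by
      rw [← sub_add_cancel (z ⟨w, b, j⟩) (t w ^ (b : ℕ) * s w j)]
      refine add_mem (ordGE_antitone _ (min_le_right _ _) (hz ⟨w, b, j⟩))
        (ordGE_antitone _ ?_ (mul_mem_ordGE _ (pow_mem_ordGE _ htw b) (hs w j)))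
      simp
    rcases lt_or_gt_of_ne (Fin.val_ne_of_ne (Finset.ne_of_mem_erase hb)) with h | h
    · exact ordGE_antitone _ (by omega)
        (mul_mem_ordGE _ (hφI _ (ih b h w b.2 j) w) hzb)
    · simp only at h
      exact ordGE_antitone _ (by omega) (mul_mem_ordGE _ (hφ _ w) hzb)
  rw [Submodule.add_mem_iff_left _ hrest] at htot
  have hdiff : ∑ j, φ (c ⟨w, ⟨a, ha⟩, j⟩) * (z ⟨w, ⟨a, ha⟩, j⟩ - t w ^ a * s w j)
      ∈ ordGE (w : Place K F) k :=
    Submodule.sum_mem _ fun j _ =>
      ordGE_antitone _ (show k ≤ 0 + (e w : ℤ) by omega)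
        (mul_mem_ordGE _ (hφ _ w) (hz ⟨w, ⟨a, ha⟩, j⟩))
  simp only [mul_sub, Finset.sum_sub_distrib] at hdiff
  rw [Submodule.sub_mem_iff_right _ htot] at hdiff
  rw [← mul_mem_ordGE_iff (w : Place K F) (pow_ne_zero a (ht w).1), ord_pow, (ht w).2, mul_one,
    Finset.mul_sum]
  simpa only [mul_left_comm (t w ^ a)] using hdiff

end Fermat.Agent.FF
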