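import Fermat.Agent.FF.SemiLocal
import Fermat.Agent.FF.MultiFiltration

/-!
# The norm formula `v(N f) = ∑_{w ∣ v} f_w · w(f)`
-/

set_option autoImplicit false

noncomputable section

open AlgebraicCurve

namespace Fermat.Agent.FF

variable {K F : Type*} [Field K] [Field F] [Algebra K F] [IsFunctionField K F]

/-- Dimension of a quotient of a semi-local ring by a principal ideal. -/
theorem finrank_quotient_span_eq (T : Finset (Place K F)) {S : Type*} [CommRing S] [Algebra K S]
    (ι : S →ₐ[K] F) (hι : Function.Injective ι)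
    (hS : ∀ y, y ∈ Set.range ι ↔ ∀ w ∈ T, y ∈ ordGE w 0) {s : S} (hs : s ≠ 0) :
    Module.Finite K (S ⧸ Ideal.span ({s} : Set S)) ∧
      (Module.finrank K (S ⧸ Ideal.span ({s} : Set S)) : ℤ) =
        ∑ w ∈ T, w.ord (ι s) * (w.deg : ℤ) := by
  classical
  have hs0 : ι s ≠ 0 := (map_ne_zero_iff ι hι).mpr hs
  have hmem : ∀ a : S, ι a ∈ multiGE T (fun _ => 0) := fun a =>
    mem_multiGE.mpr ((hS _).mp ⟨a, rfl⟩)
  have hnn : ∀ w ∈ T, 0 ≤ w.ord (ι s) := fun w hw =>
    (mem_ordGE_of_ne_zero w hs0).mp (mem_multiGE.mp (hmem s) w hw)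
  let n : Place K F → ℕ := fun w => (w.ord (ι s)).toNat
  obtain ⟨hfin, hrank⟩ := finrank_multiQuot T n
  let ψ : S →ₗ[K] MultiQuot T n :=
    ((multiGE T (fun w => (n w : ℤ))).comap (multiGE T (fun _ => 0)).subtype).mkQ.comp
      (LinearMap.codRestrict _ ι.toLinearMap hmem)
  have hsurj : Function.Surjective ψ := by
    intro q
    obtain ⟨y, rfl⟩ := Submodule.mkQ_surjective _ q
    obtain ⟨a, ha⟩ := (hS (y : F)).mpr (mem_multiGE.mp y.2)
    refine ⟨a, ?_⟩
    show Submodule.mkQ _ _ = _
    congr 1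
    exact Subtype.ext ha
  have hker : LinearMap.ker ψ = (Ideal.span ({s} : Set S)).restrictScalars K := by
    ext a
    rw [LinearMap.mem_ker, LinearMap.comp_apply, Submodule.mkQ_apply,
      Submodule.Quotient.mk_eq_zero, Submodule.restrictScalars_mem, Ideal.mem_span_singleton,
      Submodule.mem_comap]
    show ι a ∈ multiGE T _ ↔ s ∣ a
    rw [mem_multiGE]
    constructor
    · intro h
      obtain ⟨q, hq⟩ := (hS (ι a / ι s)).mpr fun w hw => by
        refine (mul_mem_ordGE_iff w hs0).mp ?_
        rw [add_zero, mul_div_cancel₀ _ hs0]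
        refine ordGE_antitone w ?_ (h w hw)
        simp [n, Int.toNat_of_nonneg (hnn w hw)]
      exact ⟨q, hι (by rw [map_mul, hq, mul_div_cancel₀ _ hs0])⟩
    · rintro ⟨q, rfl⟩ w hw
      rw [map_mul]
      refine ordGE_antitone w ?_ (mul_mem_ordGE w (mem_ordGE_of_le_ord w le_rfl)
        (mem_multiGE.mp (hmem q) w hw))
      simp [n, Int.toNat_of_nonneg (hnn w hw)]
  let e : (S ⧸ Ideal.span ({s} : Set S)) ≃ₗ[K] MultiQuot T n :=
    (Submodule.Quotient.restrictScalarsEquiv K _).symm.trans
      ((Submodule.quotEquivOfEq _ _ hker.symm).trans (ψ.quotKerEquivOfSurjective hsurj))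
  refine ⟨Module.Finite.equiv e.symm, ?_⟩
  rw [e.finrank_eq, hrank, Nat.cast_sum]
  exact Finset.sum_congr rfl fun w hw => by
    rw [Nat.cast_mul, Int.toNat_of_nonneg (hnn w hw)]

/-- `dim O_v / (c) = v(c) · deg v`. -/
theorem finrank_quotient_span_valuationSubring (v : Place K F) {c : v.toValuationSubring}
    (hc : c ≠ 0) :
    Module.Finite K (v.toValuationSubring ⧸ Ideal.span ({c} : Set v.toValuationSubring)) ∧
      (Module.finrank K (v.toValuationSubring ⧸ Ideal.span ({c} : Set v.toValuationSubring)) : ℤ) =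
        v.ord (c : F) * (v.deg : ℤ) := by
  have h := finrank_quotient_span_eq {v} (IsScalarTower.toAlgHom K v.toValuationSubring F)
    Subtype.val_injective (fun y => ?_) hc
  · simpa using h
  · simp only [Set.mem_range, Finset.mem_singleton, forall_eq, ← mem_toValuationSubring_iff]
    exact ⟨fun ⟨a, ha⟩ => ha ▸ a.2, fun hy => ⟨⟨y, hy⟩, rfl⟩⟩

section Extension

variable {F' : Type*} [Field F'] [Algebra K F'] [Algebra F F'] [IsScalarTower K F F']
  [Module.Finite F F'] [HasPrincipalDivisors K F']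

theorem ord_norm_of_mem_semiLocal (v : Place K F) (s : semiLocal F' v) (hs : s ≠ 0) :
    v.ord (Algebra.norm F (s : F')) =
      ∑ w ∈ v.fiber F', w.ord (s : F') * (w.inertiaDeg F : ℤ) := by
  classical
  have := isFunctionField_of_finite K F F'
  obtain ⟨b, hbS, hrepr⟩ := exists_semiLocal_basis (F' := F') v
  let R := v.toValuationSubring
  let bS₀ : Fin (Module.finrank F F') → semiLocal F' v := fun i => ⟨b i, hbS i⟩
  have hsm : ∀ (a : R) (y : semiLocal F' v),
      ((a • y : semiLocal F' v) : F') = (a : F) • (y : F') := fun a y => by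
    show (a • (y : F') : F') = _
    rw [Algebra.smul_def, Algebra.smul_def]
    rfl
  have hli : LinearIndependent R bS₀ := by
    refine LinearIndependent.of_comp (semiLocal F' v).val.toLinearMap ?_
    rw [Fintype.linearIndependent_iff]
    intro g hg i
    have h : ∑ i, (g i : F) • b i = 0 := by
      rw [← hg]
      refine Finset.sum_congr rfl fun i _ => ?_
      rw [Function.comp_apply]
      exact (hsm (g i) (bS₀ i)).symm
    exact Subtype.ext (Fintype.linearIndependent_iff.mp b.linearIndependent _ h i)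
  have hsp : ⊤ ≤ Submodule.span R (Set.range bS₀) := by
    intro y _
    rw [Submodule.mem_span_range_iff_exists_fun]
    refine ⟨fun i => ⟨b.repr (y : F') i, hrepr _ y.2 i⟩, Subtype.ext ?_⟩
    conv_rhs => rw [← b.sum_repr (y : F')]
    rw [AddSubmonoidClass.coe_finsetSum]
    refine Finset.sum_congr rfl fun i _ => ?_
    exact hsm _ (bS₀ i)
  let bS : Module.Basis (Fin (Module.finrank F F')) R (semiLocal F' v) :=
    Module.Basis.mk hli hsp
  have hbS' : ∀ i, (bS i : F') = b i := fun i => by simp [bS, bS₀]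
  have hnorm : ((Algebra.norm R s : R) : F) = Algebra.norm F (s : F') := by
    rw [Algebra.norm_eq_matrix_det bS, Algebra.norm_eq_matrix_det b]
    show algebraMap R F _ = _
    rw [RingHom.map_det]
    congr 1
    ext i j
    rw [RingHom.mapMatrix_apply, Matrix.map_apply, Algebra.leftMulMatrix_eq_repr_mul,
      Algebra.leftMulMatrix_eq_repr_mul]
    have hrep : ∀ y : semiLocal F' v, b.repr (y : F') i = (bS.repr y i : F) := fun y => by
      have h2 : (y : F') = ∑ k, (bS.repr y k : F) • b k := by
        conv_lhs => rw [← bS.sum_repr y]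
        rw [AddSubmonoidClass.coe_finsetSum]
        refine Finset.sum_congr rfl fun k _ => ?_
        rw [hsm, hbS']
      conv_lhs => rw [h2]
      rw [b.repr_sum_self]
    rw [← hbS' j, ← MulMemClass.coe_mul, hrep]
    rfl
  have hI : Ideal.span ({s} : Set (semiLocal F' v)) ≠ ⊥ :=
    Ideal.span_singleton_eq_bot.not.mpr hs
  obtain ⟨u, hu⟩ := (associated_norm_prod_smith bS hs).symm
  set c := Ideal.smithCoeffs bS _ hI
  have hc0 : ∀ i, c i ≠ 0 := fun i => Ideal.smithCoeffs_ne_zero bS _ hI i
  have hcF : ∀ i, (c i : F) ≠ 0 := fun i h => hc0 i (Subtype.ext h)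
  have hordN : v.ord (Algebra.norm F (s : F')) = ∑ i, v.ord (c i : F) := by
    rw [← hnorm, ← hu]
    show v.ord (((∏ i, c i : R) : F) * ((u : R) : F)) = _
    rw [SubmonoidClass.coe_finsetProd, v.ord_mul (Finset.prod_ne_zero_iff.mpr fun i _ => hcF i)
      (fun h => u.ne_zero (Subtype.ext h)), v.ord_coe_unit, add_zero,
      ord_prod v _ _ fun i _ => hcF i]
  have : ∀ i, Module.Finite K (R ⧸ Ideal.span ({c i} : Set R)) := fun i =>
    (finrank_quotient_span_valuationSubring v (hc0 i)).1
  have hdim : (Module.finrank K (semiLocal F' v ⧸ Ideal.span ({s} : Set (semiLocal F' v))) : ℤ) =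
      ∑ i, v.ord (c i : F) * (v.deg : ℤ) := by
    rw [Ideal.finrank_quotient_eq_sum K hI bS, Nat.cast_sum]
    exact Finset.sum_congr rfl fun i _ => (finrank_quotient_span_valuationSubring v (hc0 i)).2
  have hdim' := (finrank_quotient_span_eq (v.fiber F')
    (IsScalarTower.toAlgHom K (semiLocal F' v) F') Subtype.val_injective
    (fun y => ⟨fun ⟨a, ha⟩ => ha ▸ mem_semiLocal.mp a.2, fun hy => ⟨⟨y, hy⟩, rfl⟩⟩) hs).2
  refine mul_right_cancel₀ (show (v.deg : ℤ) ≠ 0 by exact_mod_cast (deg_pos v).ne') ?_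
  rw [hordN, Finset.sum_mul, ← hdim, hdim', Finset.sum_mul]
  refine Finset.sum_congr rfl fun w hw => ?_
  rw [← w.deg_restrict_mul_inertiaDeg (F := F), Place.mem_fiber.mp hw]
  show w.ord (s : F') * _ = _
  push_cast
  ring

/-- **Norm formula.** -/
theorem ord_norm (v : Place K F) (f : F') :
    v.ord (Algebra.norm F f) = ∑ w ∈ v.fiber F', w.ord f * (w.inertiaDeg F : ℤ) := by
  classical
  rcases eq_or_ne f 0 with rfl | hf
  · simp
  have := isFunctionField_of_finite K F F'
  obtain ⟨t, ht0, ht⟩ := exists_ne_zero_ord_eq v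
    (∑ w ∈ v.fiber F', ((w.ord f).natAbs : ℤ))
  have htF : algebraMap F F' t ≠ 0 := by simpa using ht0
  have hmem : algebraMap F F' t * f ∈ semiLocal F' v := fun w hw => by
    refine mem_ordGE_of_le_ord w ?_
    rw [w.ord_mul htF hf, w.ord_restrict, Place.mem_fiber.mp hw, ht]
    have h1 := Finset.single_le_sum (f := fun w : Place K F' => ((w.ord f).natAbs : ℤ))
      (fun _ _ => Int.natCast_nonneg _) hw
    have h2 : (1 : ℤ) ≤ w.ramificationIndex F := by
      exact_mod_cast w.ramificationIndex_pos (F := F)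
    have h3 := le_mul_of_one_le_left (Finset.sum_nonneg fun w (_ : w ∈ v.fiber F') =>
      Int.natCast_nonneg ((w.ord f).natAbs)) h2
    beta_reduce at h1
    omega
  have h := ord_norm_of_mem_semiLocal v ⟨_, hmem⟩ fun h => by
    have := congrArg Subtype.val h
    simp [hf, ht0] at this
  simp only at h
  rw [map_mul, Algebra.norm_algebraMap, v.ord_mul (pow_ne_zero _ ht0)
    (Algebra.norm_ne_zero_iff.mpr hf), ord_pow] at h
  have hsum : ∑ w ∈ v.fiber F', w.ord (algebraMap F F' t * f) * (w.inertiaDeg F : ℤ) =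
      (Module.finrank F F' : ℤ) * v.ord t +
        ∑ w ∈ v.fiber F', w.ord f * (w.inertiaDeg F : ℤ) := by
    have hsum0 : ∑ w ∈ v.fiber F', (w.ramificationIndex F : ℤ) * (w.inertiaDeg F : ℤ)
        = (Module.finrank F F' : ℤ) :=
      SumRamificationInertia.sum_ramificationIndex_mul_inertiaDeg v
    rw [← hsum0, Finset.sum_mul, ← Finset.sum_add_distrib]
    refine Finset.sum_congr rfl fun w hw => ?_
    rw [w.ord_mul htF hf, w.ord_restrict, Place.mem_fiber.mp hw]
    ring
  rw [hsum] at h
  omega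

/-- `PushforwardNormFormula` holds for finite extensions of function fields. -/
theorem pushforwardNormFormula : Divisor.PushforwardNormFormula K F F' := by
  classical
  intro f hf D hD v
  have := isFunctionField_of_finite K F F'
  rw [Divisor.pushforward_apply, ← Finset.sum_filter, ord_norm v f]
  refine Eq.trans (Finset.sum_congr rfl fun w _ => by rw [hD]) ?_
  refine Finset.sum_subset (fun w hw => Place.mem_fiber.mpr (Finset.mem_filter.mp hw).2)
    fun w hw hnot => ?_
  rw [Finset.mem_filter, not_and, Finsupp.mem_support_iff, hD] at hnot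
  rw [of_not_not fun h => hnot h (Place.mem_fiber.mp hw), zero_mul]

end Extension

end Fermat.Agent.FF
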