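import Fermat.Agent.FF.Extension

/-!
# The semi-local ring above a place is free of rank `[F' : F]`
-/

set_option autoImplicit false

noncomputable section

open AlgebraicCurve

namespace Fermat.Agent.FF

variable {K F F' : Type*} [Field K] [Field F] [Field F'] [Algebra K F] [Algebra K F']
  [Algebra F F'] [IsScalarTower K F F'] [Module.Finite F F'] [IsFunctionField K F]

/-- The scalar tower `K → O_v → F'`. -/
instance isScalarTower_valuationSubring_extension (v : Place K F) :
    IsScalarTower K v.toValuationSubring F' :=
  IsScalarTower.of_algebraMap_eq fun a => IsScalarTower.algebraMap_apply K F F' a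

omit [Module.Finite F F'] [IsFunctionField K F] in
omit [Algebra K F'] [IsScalarTower K F F'] in
theorem algebraMap_valuationSubring_apply (v : Place K F) (a : v.toValuationSubring) :
    algebraMap v.toValuationSubring F' a = algebraMap F F' (a : F) := rfl

/-- A residue basis of `w` over the residue field below, in elementary terms. -/
theorem exists_residue_family (w : Place K F') :
    ∃ s : Fin (w.inertiaDeg F) → ordGE w 0,
      ∀ c : Fin (w.inertiaDeg F) → (w.restrict F).toValuationSubring,
        ∑ j, algebraMap F F' (c j : F) * (s j : F') ∈ ordGE w 1 →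
          ∀ j, (c j : F) ∈ ordGE (w.restrict F) 1 := by
  have := isFunctionField_of_finite K F F'
  have : Module.Finite (w.restrict F).ResidueField w.ResidueField :=
    Module.Finite.of_restrictScalars_finite K _ _
  let b := Module.finBasis (w.restrict F).ResidueField w.ResidueField
  choose s hs using fun j => residueMap_surjective w (b j)
  refine ⟨s, fun c hc j => ?_⟩
  rw [← residue_eq_zero_iff]
  refine Fintype.linearIndependent_iff.mp b.linearIndependent
    (fun j => IsLocalRing.residue _ (c j)) ?_ j
  have hmem : ∀ j, algebraMap F F' (c j : F) * (s j : F') ∈ ordGE w 0 := fun j => by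
    simpa using mul_mem_ordGE w
      ((mem_toValuationSubring_iff w).mp (ValuationSubring.mem_comap.mp (c j).2)) (s j).2
  have h0 : residueMap w (∑ j, ⟨_, hmem j⟩) = 0 := by
    rw [residueMap_eq_zero_iff]
    simpa using hc
  rw [map_sum] at h0
  rw [← h0]
  refine Finset.sum_congr rfl fun j _ => ?_
  rw [← hs j, Algebra.smul_def]
  show IsLocalRing.residue _ (Place.restrictInclusion F w (c j)) *
    IsLocalRing.residue _ _ = _
  rw [← map_mul]
  rfl

variable [HasPrincipalDivisors K F']

variable (F') in
/-- The elements of `F'` integral at every place above `v`. -/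
def semiLocal (v : Place K F) : Subalgebra v.toValuationSubring F' where
  carrier := {y | ∀ w ∈ v.fiber F', y ∈ ordGE w 0}
  mul_mem' := fun {a b} ha hb w hw => by simpa using mul_mem_ordGE w (ha w hw) (hb w hw)
  one_mem' := fun w _ => one_mem_ordGE_zero w
  add_mem' := fun {a b} ha hb w hw => add_mem (ha w hw) (hb w hw)
  zero_mem' := fun w _ => zero_mem _
  algebraMap_mem' := fun a w hw => by
    have h : (a : F) ∈ ordGE (w.restrict F) 0 := by
      rw [Place.mem_fiber.mp hw]; exact (mem_toValuationSubring_iff v).mp a.2
    rw [algebraMap_valuationSubring_apply]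
    simpa using algebraMap_mem_ordGE w h

omit [IsFunctionField K F] in
theorem mem_semiLocal {v : Place K F} {y : F'} :
    y ∈ semiLocal F' v ↔ ∀ w ∈ v.fiber F', y ∈ ordGE w 0 := Iff.rfl

/-- A basis of `F'` over `F` which is at the same time a basis of `semiLocal F' v` over `O_v`. -/
theorem exists_semiLocal_basis (v : Place K F) :
    ∃ (b : Module.Basis (Fin (Module.finrank F F')) F F'),
      (∀ i, b i ∈ semiLocal F' v) ∧
      ∀ y ∈ semiLocal F' v, ∀ i, b.repr y i ∈ v.toValuationSubring := by
  classical
  have := isFunctionField_of_finite K F F'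
  set T := v.fiber F'
  let e : Place K F' → ℕ := fun w => w.ramificationIndex F
  choose t ht using fun w : T => exists_uniformizer (w : Place K F')
  choose s hs using fun w : T => exists_residue_family (F := F) (w : Place K F')
  obtain ⟨z, hz, hz'⟩ := exists_approx_family T e
    (J := fun w : T => Fin ((w : Place K F').inertiaDeg F)) t (fun w j => (s w j : F'))
  let φ : v.toValuationSubring → F' := fun a => algebraMap F F' (a : F)
  have hv : ∀ w : T, (w : Place K F').restrict F = v := fun w => Place.mem_fiber.mp w.2
  have hφ : ∀ (a : v.toValuationSubring) (w : T), φ a ∈ ordGE (w : Place K F') 0 := fun a w => by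
    have h : (a : F) ∈ ordGE ((w : Place K F').restrict F) 0 := by
      rw [hv w]; exact (mem_toValuationSubring_iff v).mp a.2
    simpa using algebraMap_mem_ordGE (w : Place K F') h
  -- only small coefficients give elements of order `≥ e` everywhere
  have hsmall : ∀ c : Idx e (fun w : T => Fin ((w : Place K F').inertiaDeg F)) →
      v.toValuationSubring,
      (∀ w : T, ∑ i, φ (c i) * z i ∈ ordGE (w : Place K F') (e w)) →
        ∀ i, c i ∈ {a : v.toValuationSubring | (a : F) ∈ ordGE v 1} := by
    refine fun c hc => approx_indep T e t (fun w j => (s w j : F')) ht (fun w j => (s w j).2) hz hz'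
      φ _ hφ (fun a ha w => ?_) (fun w c hc j => ?_) c hc
    · have h : (a : F) ∈ ordGE ((w : Place K F').restrict F) 1 := by rw [hv w]; exact ha
      simpa [e] using algebraMap_mem_ordGE (w : Place K F') h
    · have h1 : (c j : F) ∈ ordGE ((w : Place K F').restrict F) 1 :=
        hs w (fun j => ⟨(c j : F), by rw [hv w]; exact (c j).2⟩) hc j
      rw [hv w] at h1
      exact h1
  have hzS : ∀ i, z i ∈ semiLocal F' v := fun i w hw => by
    by_cases h : (⟨w, hw⟩ : T) = i.1
    · obtain rfl : w = (i.1 : Place K F') := congrArg Subtype.val h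
      rw [← sub_add_cancel (z i) (t i.1 ^ (i.2.1 : ℕ) * (s i.1 i.2.2 : F'))]
      refine add_mem (ordGE_antitone _ (by positivity) (hz i)) ?_
      exact ordGE_antitone _ (by simp [ord_pow, (ht i.1).2])
        (mul_mem_ordGE _ (mem_ordGE_of_le_ord _ le_rfl) (s i.1 i.2.2).2)
    · exact ordGE_antitone _ (by positivity) (hz' i ⟨w, hw⟩ h)
  -- coefficients of `m`-integral combinations
  have hscale : ∀ (g : Idx e (fun w : T => Fin ((w : Place K F').inertiaDeg F)) → F)
      (y : F'), ∑ i, g i • z i = y → y ∈ semiLocal F' v → ∀ i, g i ∈ v.toValuationSubring := by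
    intro g y hy hyS i₁
    by_contra hbad
    have hsupp : (Finset.univ.filter fun i => g i ≠ 0).Nonempty :=
      ⟨i₁, by simp; rintro h; exact hbad (h ▸ zero_mem _)⟩
    obtain ⟨k, hk, hmin⟩ := Finset.exists_min_image _ (fun i => v.ord (g i)) hsupp
    simp only [Finset.mem_filter, Finset.mem_univ, true_and] at hk hmin
    have hg1 : g i₁ ≠ 0 := fun h => hbad (h ▸ zero_mem _)
    have hkneg : v.ord (g k) < 0 := by
      have h1 : v.ord (g i₁) < 0 := by
        rw [mem_toValuationSubring_iff_ord v hg1] at hbad; omega
      have := hmin i₁ hg1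
      omega
    have hc : ∀ i, g i / g k ∈ v.toValuationSubring := fun i => by
      rcases eq_or_ne (g i) 0 with h | h
      · simp [h]
      · rw [mem_toValuationSubring_iff_ord v (div_ne_zero h hk), ord_div v h hk]
        have := hmin i h
        omega
    have h1 := hsmall (fun i => ⟨g i / g k, hc i⟩) (fun w => ?_) k
    · replace h1 : g k / g k ∈ ordGE v 1 := h1
      rw [div_self hk, mem_ordGE_of_ne_zero v one_ne_zero, v.ord_one] at h1
      omega
    · have heq : ∑ i, φ ⟨g i / g k, hc i⟩ * z i = algebraMap F F' (g k)⁻¹ * y := by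
        rw [← hy, Finset.mul_sum]
        refine Finset.sum_congr rfl fun i _ => ?_
        simp only [φ, Algebra.smul_def, map_div₀, map_inv₀]
        ring
      rw [heq]
      have h2 : (g k)⁻¹ ∈ ordGE ((w : Place K F').restrict F) 1 := by
        rw [hv w]; exact mem_ordGE_of_le_ord v (by rw [v.ord_inv]; omega)
      simpa [e] using mul_mem_ordGE _ (algebraMap_mem_ordGE (w : Place K F') h2) (hyS w w.2)
  have hli : LinearIndependent F z := by
    rw [Fintype.linearIndependent_iff]
    intro g hg i₁
    by_contra hne
    obtain ⟨π, hπ0, hπ⟩ := exists_ne_zero_ord_eq v (-1 - v.ord (g i₁))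
    have := hscale (fun i => π * g i) 0
      (by rw [← smul_zero π, ← hg, Finset.smul_sum]; simp [mul_smul]) (zero_mem _) i₁
    rw [mem_toValuationSubring_iff_ord v (mul_ne_zero hπ0 hne), v.ord_mul hπ0 hne, hπ] at this
    omega
  have hcard : Fintype.card (Idx e fun w : T => Fin ((w : Place K F').inertiaDeg F)) =
      Module.finrank F F' := by
    have h : ∑ w ∈ v.fiber F', (w.ramificationIndex F : ℤ) * (w.inertiaDeg F : ℤ)
        = (Module.finrank F F' : ℤ) :=
      SumRamificationInertia.sum_ramificationIndex_mul_inertiaDeg v
    rw [← Finset.sum_coe_sort] at h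
    simp only [Fintype.card_sigma, Fintype.card_prod, Fintype.card_fin, e]
    exact_mod_cast h
  let E := Fintype.equivFinOfCardEq hcard
  have hspan : ⊤ ≤ Submodule.span F (Set.range (z ∘ E.symm)) := by
    rw [(hli.comp _ E.symm.injective).span_eq_top_of_card_eq_finrank' (by simp)]
  let b : Module.Basis (Fin (Module.finrank F F')) F F' :=
    Module.Basis.mk (hli.comp _ E.symm.injective) hspan
  have hb : ∀ i, b i = z (E.symm i) := fun i => by simp [b]
  refine ⟨b, fun i => hb i ▸ hzS _, fun y hy i => ?_⟩
  have := hscale (fun j => b.repr y (E j)) y ?_ hy (E.symm i)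
  · simpa using this
  · rw [← E.symm.sum_comp]
    simpa [hb] using b.sum_repr y

end Fermat.Agent.FF
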